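/-
Programme MP (row 38 via S44), chapter PEU (helper4): **the interface of step (C)**.

`p` a prime, `M` an abelian group with an action `act` of `GQ` (for us: `E[p]` of the Frey curve, or
the copy `V ⊂ J₀(N)[p]` of it), `ζ ∈ ℚ̄` a primitive `p`-th root of unity, `Iv p` the inertia group
of `padicPlace p`, `Γ_L = {σ ∈ Iv p | σ ζ = ζ}`.

* `Break p ζ κ t` : the **break-1 element** (helper7's `Break1`, unfolded): `|t|^p = 1/p`,
  `σ t = t` for `σ ∈ Γ_L` with `κ σ = 0`, `|σ t − t| = |ζ − 1|` for `σ ∈ Γ_L` with `κ σ ≠ 0`.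
* `PeuData p act ζ ℓ₀ y χ κ` : **shape (C)** of the inertia action: `(ℓ₀, y)` is a basis of `M`
  (killed by `p`), `σ ζ = ζ^{χ σ}`, `σ ℓ₀ = χ(σ) ℓ₀`, `σ y − y = κ(σ) ℓ₀` for `σ ∈ Iv p`, and
  `κ|Γ_L` is **peu ramifié**: it vanishes (split case) or there is a break-1 element.
* `PeuData.transport` : shape (C) transports along an `Iv p`-equivariant additive isomorphism.
* `PeuData.smul_sub_mem` : inertia acts trivially on `M / ⟨ℓ₀⟩`;
  `PeuData.fixed_of_zeta` : `Γ_L` fixes `ℓ₀`.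
* `PeuFrey P` : the statement to be proved in this chapter (for the Frey curve at `p ∣ abc`).
-/
import Mathlib
import Fermat.Prelude.Def_FLTPrelim_FreyPackage
import Fermat.Prelude.Def_FLTPrelim_GaloisRep
import Fermat.Agent.FF.BASE.Place2

set_option autoImplicit false
set_option linter.unusedSectionVars false
set_option linter.style.longLine false

namespace Fermat.Agent.MP.PEU.Iface4

open WeierstrassCurve WeierstrassCurve.Affine WeierstrassCurve.Affine.Point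
open Fermat.Agent.FF.BASE.Place2 Fermat.Agent.TW.FLAT.FlatModule6

noncomputable section

/-- **break-1 element** for the character `κ` on `Γ_L = {σ ∈ Iv p | σ ζ = ζ}`. -/
structure Break (p : ℕ) [Fact p.Prime] (ζ : Qb) (κ : GQ → ZMod p) (t : Qb) : Prop where
  norm_pow : nrm p t ^ p = ((p : ℝ))⁻¹
  fixed : ∀ σ ∈ Iv p, σ ζ = ζ → κ σ = 0 → σ t = t
  moved : ∀ σ ∈ Iv p, σ ζ = ζ → κ σ ≠ 0 → nrm p (σ t - t) = nrm p (ζ - 1)

/-- **shape (C)** of the action of the inertia group at `p` on a two-dimensional `𝔽_p`-space. -/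
structure PeuData (p : ℕ) [Fact p.Prime] {M : Type*} [AddCommGroup M] (act : GQ → M → M)
    (ζ : Qb) (ℓ₀ y : M) (χ κ : GQ → ZMod p) : Prop where
  killed : ∀ x : M, p • x = 0
  indep : ∀ a b : ZMod p, a.val • ℓ₀ + b.val • y = 0 → a = 0 ∧ b = 0
  spans : ∀ x : M, ∃ a b : ZMod p, x = a.val • ℓ₀ + b.val • y
  zeta : ∀ σ ∈ Iv p, σ ζ = ζ ^ (χ σ).val
  act_line : ∀ σ ∈ Iv p, act σ ℓ₀ = (χ σ).val • ℓ₀
  act_y : ∀ σ ∈ Iv p, act σ y - y = (κ σ).val • ℓ₀
  act_add : ∀ σ ∈ Iv p, ∀ x x' : M, act σ (x + x') = act σ x + act σ x'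
  peu : (∀ σ ∈ Iv p, σ ζ = ζ → κ σ = 0) ∨ ∃ t : Qb, Break p ζ κ t

section Abstract

variable {p : ℕ} [Fact p.Prime] {M : Type*} [AddCommGroup M] {act : GQ → M → M}
  {ζ : Qb} {ℓ₀ y : M} {χ κ : GQ → ZMod p}

theorem act_nsmul (h : PeuData p act ζ ℓ₀ y χ κ) {σ : GQ} (hσ : σ ∈ Iv p) (n : ℕ) (x : M) :
    act σ (n • x) = n • act σ x := by
  induction n with
  | zero =>
    have h0 := h.act_add σ hσ 0 0
    rw [add_zero] at h0
    have : act σ 0 = 0 := by
      have h1 : act σ 0 + 0 = act σ 0 + act σ 0 := by rw [add_zero]; exact h0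
      exact (add_left_cancel h1).symm
    simp [this]
  | succ n ih => rw [succ_nsmul, h.act_add σ hσ, ih, succ_nsmul]

/-- inertia acts trivially on `M / ⟨ℓ₀⟩`. -/
theorem PeuData.smul_sub_mem (h : PeuData p act ζ ℓ₀ y χ κ) {σ : GQ} (hσ : σ ∈ Iv p) (x : M) :
    act σ x - x ∈ AddSubgroup.zmultiples ℓ₀ := by
  obtain ⟨a, b, rfl⟩ := h.spans x
  rw [h.act_add σ hσ, act_nsmul h hσ, act_nsmul h hσ, h.act_line σ hσ]
  have hy : act σ y = y + (κ σ).val • ℓ₀ := by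
    rw [← h.act_y σ hσ]; abel
  rw [hy]
  have e : a.val • (χ σ).val • ℓ₀ + b.val • (y + (κ σ).val • ℓ₀) - (a.val • ℓ₀ + b.val • y)
      = ((a.val * (χ σ).val + b.val * (κ σ).val : ℕ) : ℤ) • ℓ₀ - ((a.val : ℕ) : ℤ) • ℓ₀ := by
    rw [natCast_zsmul, natCast_zsmul, add_smul, smul_add, mul_smul, mul_smul]
    abel
  rw [e]
  exact (AddSubgroup.zmultiples ℓ₀).sub_mem (AddSubgroup.zsmul_mem_zmultiples _ _)
    (AddSubgroup.zsmul_mem_zmultiples _ _)

/-- `Γ_L` fixes `ℓ₀`. -/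
theorem PeuData.fixed_of_zeta (h : PeuData p act ζ ℓ₀ y χ κ) (hζ : IsPrimitiveRoot ζ p)
    {σ : GQ} (hσ : σ ∈ Iv p) (hσζ : σ ζ = ζ) : act σ ℓ₀ = ℓ₀ := by
  have hp : p.Prime := Fact.out
  have h1 := h.zeta σ hσ
  rw [hσζ] at h1
  have h2 : ζ ^ (χ σ).val = ζ ^ 1 := by rw [pow_one]; exact h1.symm
  have h3 := hζ.pow_inj (ZMod.val_lt _) hp.one_lt h2
  rw [h.act_line σ hσ, h3, one_smul]

/-- **transport** of shape (C) along an inertia-equivariant additive isomorphism. -/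
theorem PeuData.transport (h : PeuData p act ζ ℓ₀ y χ κ) {M' : Type*} [AddCommGroup M']
    (act' : GQ → M' → M') (e : M ≃+ M') (he : ∀ σ ∈ Iv p, ∀ x, e (act σ x) = act' σ (e x)) :
    PeuData p act' ζ (e ℓ₀) (e y) χ κ where
  killed x := by
    obtain ⟨x, rfl⟩ := e.surjective x
    rw [← map_nsmul, h.killed, _root_.map_zero]
  indep a b hab := by
    apply h.indep a b
    apply e.injective
    rw [map_add, map_nsmul, map_nsmul, hab, _root_.map_zero]
  spans x := by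
    obtain ⟨x, rfl⟩ := e.surjective x
    obtain ⟨a, b, rfl⟩ := h.spans x
    exact ⟨a, b, by rw [map_add, map_nsmul, map_nsmul]⟩
  zeta := h.zeta
  act_line σ hσ := by rw [← he σ hσ, h.act_line σ hσ, map_nsmul]
  act_y σ hσ := by rw [← he σ hσ, ← map_sub, h.act_y σ hσ, map_nsmul]
  act_add σ hσ x x' := by
    obtain ⟨x, rfl⟩ := e.surjective x
    obtain ⟨x', rfl⟩ := e.surjective x'
    rw [← map_add, ← he σ hσ, ← he σ hσ, ← he σ hσ, h.act_add σ hσ, map_add]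
  peu := h.peu

end Abstract

/-- the `p`-torsion of the Frey curve over `ℚ̄`. -/
abbrev Tors (P : FreyPackage) : Type :=
  Submodule.torsionBy ℤ (P.freyCurve⁄Qb).Point P.p

/-- **The statement of chapter PEU**: for the Frey curve at a prime `p ∣ abc`, the inertia group at
`p` acts on `E[p]` in shape (C) with a peu ramifié cocycle. -/
def PeuFrey (P : FreyPackage) : Prop :=
  haveI : Fact P.p.Prime := ⟨P.pp⟩
  (P.p : ℤ) ∣ P.a * P.b * P.c → ∀ ζ : Qb, IsPrimitiveRoot ζ P.p →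
    ∃ (ℓ₀ y : Tors P) (χ κ : GQ → ZMod P.p),
      PeuData P.p (fun σ x => σ • x) ζ ℓ₀ y χ κ

end

end Fermat.Agent.MP.PEU.Iface4
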