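/-
Programme MP, chapter PEU (helper4), file Cyclo4: **valuations around the `p`-th roots of unity**
(generic valued field).

`K` a field with a valuation `v`, `p` a prime with `v p < 1`, `ζ` a primitive `p`-th root of unity,
`lam = ζ - 1`.

* `val_zeta_pow` : `v (ζ ^ k) = 1`;
* `val_pow_sub_one` : `v (ζ ^ k - 1) = v lam` for `p ∤ k`; `val_pow_sub_pow`;
* `val_lam_pow` : `v lam ^ (p - 1) = v p`; `val_lam_lt_one`, `val_p_lt_lam`, `val_lam_pos`;
* `pow_sub_one_eq_prod` : `w ^ p - 1 = ∏ k < p, (w - ζ ^ k)`;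
* `exists_close_of_pow` : `v (w ^ p - 1) < v lam ^ p ⟹ ∃ k < p, v (w - ζ ^ k) < v lam`;
* `close_unique` : such a `k` is unique;
* `val_pow_sub_one_of_close` : `v (w - 1) < v lam ⟹ v (w ^ p - 1) = v p * v (w - 1)`;
* `val_pow_sub_one_of_far` : `v lam < v (w - 1) ⟹ v (w ^ p - 1) = v (w - 1) ^ p`.
-/
import Mathlib

set_option autoImplicit false
set_option linter.unusedSectionVars false
set_option linter.style.longLine false

namespace Fermat.Agent.MP.PEU.Cyclo4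

open Finset Polynomial

variable {K : Type*} [Field K] {Γ₀ : Type*} [LinearOrderedCommGroupWithZero Γ₀]
  {v : Valuation K Γ₀} {p : ℕ} {ζ : K}

theorem val_zeta (hp : p.Prime) (hζ : IsPrimitiveRoot ζ p) : v ζ = 1 := by
  have h1 : v ζ ^ p = 1 := by rw [← map_pow, hζ.pow_eq_one, map_one]
  exact (pow_eq_one_iff_of_nonneg zero_le hp.ne_zero).mp h1

theorem val_zeta_pow (hp : p.Prime) (hζ : IsPrimitiveRoot ζ p) (k : ℕ) : v (ζ ^ k) = 1 := by
  rw [map_pow, val_zeta hp hζ, one_pow]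

/-- `v (ζ ^ k - 1) ≤ v (ζ - 1)`. -/
theorem val_pow_sub_one_le (hp : p.Prime) (hζ : IsPrimitiveRoot ζ p) (k : ℕ) :
    v (ζ ^ k - 1) ≤ v (ζ - 1) := by
  have h1 : ζ ^ k - 1 = (∑ i ∈ range k, ζ ^ i) * (ζ - 1) := (geom_sum_mul ζ k).symm
  rw [h1, map_mul]
  have h2 : v (∑ i ∈ range k, ζ ^ i) ≤ 1 :=
    v.map_sum_le fun i _ => (val_zeta_pow hp hζ i).le
  calc v (∑ i ∈ range k, ζ ^ i) * v (ζ - 1) ≤ 1 * v (ζ - 1) := mul_le_mul' h2 le_rfl
    _ = v (ζ - 1) := one_mul _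

/-- `v (ζ ^ k - 1) = v (ζ - 1)` for `p ∤ k`. -/
theorem val_pow_sub_one (hp : p.Prime) (hζ : IsPrimitiveRoot ζ p) {k : ℕ} (hk : ¬ p ∣ k) :
    v (ζ ^ k - 1) = v (ζ - 1) := by
  refine le_antisymm (val_pow_sub_one_le hp hζ k) ?_
  have hcop : Nat.Coprime k p := ((Nat.Prime.coprime_iff_not_dvd hp).mpr hk).symm
  have hζk : IsPrimitiveRoot (ζ ^ k) p := hζ.pow_of_coprime k hcop
  have : NeZero p := ⟨hp.ne_zero⟩
  obtain ⟨j, -, hj⟩ := hζk.eq_pow_of_pow_eq_one hζ.pow_eq_one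
  have := val_pow_sub_one_le (v := v) hp hζk j
  rwa [hj] at this

/-- `v (ζ ^ j - ζ ^ k) = v (ζ - 1)` for `j ≢ k mod p`. -/
theorem val_pow_sub_pow (hp : p.Prime) (hζ : IsPrimitiveRoot ζ p) {j k : ℕ}
    (hjk : ¬ (j ≡ k [MOD p])) : v (ζ ^ j - ζ ^ k) = v (ζ - 1) := by
  wlog h : k ≤ j generalizing j k
  · rw [← Valuation.map_sub_swap]
    exact this (fun h' => hjk h'.symm) (le_of_not_ge h)
  obtain ⟨d, rfl⟩ := Nat.exists_eq_add_of_le h
  have hd : ¬ p ∣ d := by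
    intro hd
    apply hjk
    have : k + d ≡ k + 0 [MOD p] := Nat.ModEq.add_left k ((Nat.modEq_zero_iff_dvd).mpr hd)
    simpa using this
  have e : ζ ^ (k + d) - ζ ^ k = ζ ^ k * (ζ ^ d - 1) := by rw [pow_add]; ring
  rw [e, map_mul, val_zeta_pow hp hζ, one_mul, val_pow_sub_one hp hζ hd]

/-- `v (ζ - 1) ^ (p - 1) = v p`. -/
theorem val_lam_pow (hp : p.Prime) (hζ : IsPrimitiveRoot ζ p) :
    v (ζ - 1) ^ (p - 1) = v (p : K) := by
  obtain ⟨n, rfl⟩ : ∃ n, p = n + 1 := ⟨p - 1, (Nat.succ_pred_eq_of_pos hp.pos).symm⟩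
  have h := hζ.prod_one_sub_pow_eq_order
  have h2 : v (∏ k ∈ range n, (1 - ζ ^ (k + 1))) = v (ζ - 1) ^ n := by
    rw [map_prod]
    have : ∀ k ∈ range n, v (1 - ζ ^ (k + 1)) = v (ζ - 1) := by
      intro k hk
      rw [Valuation.map_sub_swap]
      apply val_pow_sub_one hp hζ
      intro hd
      have := Nat.le_of_dvd (Nat.succ_pos k) hd
      have := mem_range.mp hk
      omega
    rw [prod_congr rfl this, prod_const, card_range]
  rw [Nat.add_sub_cancel, ← h2, h]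
  push_cast
  rfl

theorem val_lam_lt_one (hp : p.Prime) (hζ : IsPrimitiveRoot ζ p) (hvp : v (p : K) < 1) :
    v (ζ - 1) < 1 := by
  by_contra h
  have h1 : 1 ≤ v (ζ - 1) := not_lt.mp h
  have h2 : 1 ≤ v (ζ - 1) ^ (p - 1) := one_le_pow₀ h1
  rw [val_lam_pow hp hζ] at h2
  exact absurd hvp (not_lt.mpr h2)

theorem val_lam_pos (hp : p.Prime) (hζ : IsPrimitiveRoot ζ p) : 0 < v (ζ - 1) := by
  rw [pos_iff_ne_zero, ne_eq, map_eq_zero, sub_eq_zero]
  exact hζ.ne_one hp.one_lt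

/-- `v p < v lam` for `p` odd. -/
theorem val_p_lt_lam (hp : p.Prime) (hp2 : p ≠ 2) (hζ : IsPrimitiveRoot ζ p)
    (hvp : v (p : K) < 1) : v (p : K) < v (ζ - 1) := by
  have hl1 := val_lam_lt_one hp hζ hvp
  have hl0 := val_lam_pos (v := v) hp hζ
  rw [← val_lam_pow hp hζ]
  have h2 : 2 ≤ p - 1 := by have := hp.two_le; omega
  calc v (ζ - 1) ^ (p - 1) ≤ v (ζ - 1) ^ 2 := pow_le_pow_right_of_le_one' hl1.le h2
    _ = v (ζ - 1) * v (ζ - 1) := sq _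
    _ < v (ζ - 1) * 1 := by
        exact (mul_lt_mul_iff_right₀ hl0).mpr hl1
    _ = v (ζ - 1) := mul_one _

/-- `w ^ p - 1 = ∏ k < p, (w - ζ ^ k)`. -/
theorem pow_sub_one_eq_prod (hp : p.Prime) (hζ : IsPrimitiveRoot ζ p) (w : K) :
    w ^ p - 1 = ∏ k ∈ range p, (w - ζ ^ k) := by
  have h := X_pow_sub_C_eq_prod hζ hp.pos (one_pow p)
  have h2 := congrArg (Polynomial.eval w) h
  simpa [eval_prod] using h2

/-- if `w ^ p` is close to `1` then `w` is close to a `p`-th root of unity. -/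
theorem exists_close_of_pow (hp : p.Prime) (hζ : IsPrimitiveRoot ζ p) {w : K}
    (hw : v (w ^ p - 1) < v (ζ - 1) ^ p) : ∃ k < p, v (w - ζ ^ k) < v (ζ - 1) := by
  by_contra hcon
  push Not at hcon
  rw [pow_sub_one_eq_prod hp hζ, map_prod] at hw
  have h1 : v (ζ - 1) ^ p ≤ ∏ k ∈ range p, v (w - ζ ^ k) := by
    calc v (ζ - 1) ^ p = ∏ _k ∈ range p, v (ζ - 1) := by rw [prod_const, card_range]
      _ ≤ ∏ k ∈ range p, v (w - ζ ^ k) :=
        prod_le_prod' fun k hk => hcon k (mem_range.mp hk)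
  exact absurd hw (not_lt.mpr h1)

/-- the close root of unity is unique. -/
theorem close_unique (hp : p.Prime) (hζ : IsPrimitiveRoot ζ p) {w : K} {j k : ℕ}
    (hj : v (w - ζ ^ j) < v (ζ - 1)) (hk : v (w - ζ ^ k) < v (ζ - 1)) : j ≡ k [MOD p] := by
  by_contra hjk
  have h1 := val_pow_sub_pow (v := v) hp hζ hjk
  have h2 : ζ ^ j - ζ ^ k = (w - ζ ^ k) - (w - ζ ^ j) := by ring
  rw [h2] at h1
  have h3 : v ((w - ζ ^ k) - (w - ζ ^ j)) < v (ζ - 1) :=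
    lt_of_le_of_lt (v.map_sub _ _) (max_lt hk hj)
  rw [h1] at h3
  exact lt_irrefl _ h3

/-- the factor `k ≠ 0` of `w ^ p - 1` when `w` is close to `1`. -/
theorem val_sub_pow_of_close (hp : p.Prime) (hζ : IsPrimitiveRoot ζ p) {w : K}
    (hw : v (w - 1) < v (ζ - 1)) {k : ℕ} (hk : ¬ p ∣ k) : v (w - ζ ^ k) = v (ζ - 1) := by
  have e : w - ζ ^ k = (w - 1) - (ζ ^ k - 1) := by ring
  rw [e, v.map_sub_eq_of_lt_right (by rwa [val_pow_sub_one hp hζ hk]), val_pow_sub_one hp hζ hk]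

/-- `v (w - 1) < v lam ⟹ v (w ^ p - 1) = v p * v (w - 1)`. -/
theorem val_pow_sub_one_of_close (hp : p.Prime) (hζ : IsPrimitiveRoot ζ p) {w : K}
    (hw : v (w - 1) < v (ζ - 1)) : v (w ^ p - 1) = v (p : K) * v (w - 1) := by
  obtain ⟨n, rfl⟩ : ∃ n, p = n + 1 := ⟨p - 1, (Nat.succ_pred_eq_of_pos hp.pos).symm⟩
  rw [pow_sub_one_eq_prod hp hζ, prod_range_succ', pow_zero, map_mul, map_prod]
  have : ∀ k ∈ range n, v (w - ζ ^ (k + 1)) = v (ζ - 1) := by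
    intro k hk
    apply val_sub_pow_of_close hp hζ hw
    intro hd
    have := Nat.le_of_dvd (Nat.succ_pos k) hd
    have := mem_range.mp hk
    omega
  rw [prod_congr rfl this, prod_const, card_range, ← val_lam_pow hp hζ, Nat.add_sub_cancel]

/-- `v lam < v (w - 1) ⟹ v (w ^ p - 1) = v (w - 1) ^ p`. -/
theorem val_pow_sub_one_of_far (hp : p.Prime) (hζ : IsPrimitiveRoot ζ p) {w : K}
    (hw : v (ζ - 1) < v (w - 1)) : v (w ^ p - 1) = v (w - 1) ^ p := by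
  rw [pow_sub_one_eq_prod hp hζ, map_prod]
  have : ∀ k ∈ range p, v (w - ζ ^ k) = v (w - 1) := by
    intro k _
    have e : w - ζ ^ k = (w - 1) - (ζ ^ k - 1) := by ring
    rw [e]
    exact v.map_sub_eq_of_lt_left (lt_of_le_of_lt (val_pow_sub_one_le hp hζ k) hw)
  rw [prod_congr rfl this, prod_const, card_range]

/-- `v (w - 1) = v lam ⟹ v (w ^ p - 1) ≤ v lam ^ p`. -/
theorem val_pow_sub_one_le_of_eq (hp : p.Prime) (hζ : IsPrimitiveRoot ζ p) {w : K}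
    (hw : v (w - 1) ≤ v (ζ - 1)) : v (w ^ p - 1) ≤ v (ζ - 1) ^ p := by
  rw [pow_sub_one_eq_prod hp hζ, map_prod]
  have : ∀ k ∈ range p, v (w - ζ ^ k) ≤ v (ζ - 1) := by
    intro k _
    have e : w - ζ ^ k = (w - 1) - (ζ ^ k - 1) := by ring
    rw [e]
    exact (v.map_sub _ _).trans (max_le hw (val_pow_sub_one_le hp hζ k))
  calc ∏ k ∈ range p, v (w - ζ ^ k) ≤ ∏ _k ∈ range p, v (ζ - 1) := prod_le_prod' this
    _ = v (ζ - 1) ^ p := by rw [prod_const, card_range]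

end Fermat.Agent.MP.PEU.Cyclo4
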