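/-
Programme MP, chapter PEU (helper4), file LineId4: **the exact line identity** on the model curve
`Wab a b : Y² = X³ + a X² + b X` (S05), `α² = a`.

For two points `P₁ = (x₁, y₁)`, `P₂ = (x₂, y₂)` with `P₁ ≠ -P₂`, let `ℓ` be the slope of the line
through them (chord or tangent, Mathlib's `slope`), `ν = y₁ - ℓ x₁`, and `(x₃, y₃)` the third point
of the line (`x₃ = addX`, `y₃ = negAddY`; so `P₁ + P₂ = (x₃, -y₃)`). Then

  `(y₁ - α x₁) (y₂ - α x₂) (y₃ - α x₃) = ν³ + b ν (ℓ - α)²`,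
  `(y₁ + α x₁) (y₂ + α x₂) (y₃ + α x₃) = ν³ + b ν (ℓ + α)²`.

Hence `u := (Y - α X) / (Y + α X)` satisfies
`u(P₁) u(P₂) / u(P₁ + P₂) = (ν² + b (ℓ - α)²) / (ν² + b (ℓ + α)²)`: an approximate homomorphism
to `𝔾ₘ` when `b` is small (exact on the nodal cubic `b = 0`).
-/
import Mathlib
import Fermat.Agent.S05.Defs
import Fermat.Agent.S05.Kernel

set_option autoImplicit false
set_option linter.unusedSectionVars false
set_option linter.style.longLine false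

namespace Fermat.Agent.MP.PEU.LineId4

open WeierstrassCurve WeierstrassCurve.Affine Fermat.Agent.S05

variable {K : Type*} [Field K] [DecidableEq K] {a b : K}

/-- the second point lies on the line through the two points. -/
theorem line_snd {W : Affine K} {x₁ y₁ x₂ y₂ : K} (h₁ : W.Equation x₁ y₁) (h₂ : W.Equation x₂ y₂)
    (hxy : ¬(x₁ = x₂ ∧ y₁ = W.negY x₂ y₂)) :
    y₂ = W.slope x₁ x₂ y₁ y₂ * x₂ + (y₁ - W.slope x₁ x₂ y₁ y₂ * x₁) := by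
  by_cases hx : x₁ = x₂
  · have hy : y₁ ≠ W.negY x₂ y₂ := fun h => hxy ⟨hx, h⟩
    obtain rfl : y₁ = y₂ := Y_eq_of_Y_ne h₁ h₂ hx hy
    subst hx
    ring
  · rw [slope_of_X_ne hx]
    have hxs : x₁ - x₂ ≠ 0 := sub_ne_zero.mpr hx
    field_simp
    ring

/-- the third point lies on the line. -/
theorem line_third (W : Affine K) (x₁ x₂ y₁ ℓ : K) :
    W.negAddY x₁ x₂ y₁ ℓ = ℓ * W.addX x₁ x₂ ℓ + (y₁ - ℓ * x₁) := by
  simp only [negAddY]; ring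

/-- **The line identity.** -/
theorem line_identity {α : K} (hα : α ^ 2 = a) {x₁ y₁ x₂ y₂ : K}
    (h₁ : (Wab a b).toAffine.Equation x₁ y₁) (h₂ : (Wab a b).toAffine.Equation x₂ y₂)
    (hxy : ¬(x₁ = x₂ ∧ y₁ = (Wab a b).toAffine.negY x₂ y₂)) :
    (y₁ - α * x₁) * (y₂ - α * x₂) *
        ((Wab a b).toAffine.negAddY x₁ x₂ y₁ ((Wab a b).toAffine.slope x₁ x₂ y₁ y₂)
          - α * (Wab a b).toAffine.addX x₁ x₂ ((Wab a b).toAffine.slope x₁ x₂ y₁ y₂))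
      = (y₁ - (Wab a b).toAffine.slope x₁ x₂ y₁ y₂ * x₁) ^ 3
        + b * (y₁ - (Wab a b).toAffine.slope x₁ x₂ y₁ y₂ * x₁)
          * ((Wab a b).toAffine.slope x₁ x₂ y₁ y₂ - α) ^ 2 ∧
    (y₁ + α * x₁) * (y₂ + α * x₂) *
        ((Wab a b).toAffine.negAddY x₁ x₂ y₁ ((Wab a b).toAffine.slope x₁ x₂ y₁ y₂)
          + α * (Wab a b).toAffine.addX x₁ x₂ ((Wab a b).toAffine.slope x₁ x₂ y₁ y₂))
      = (y₁ - (Wab a b).toAffine.slope x₁ x₂ y₁ y₂ * x₁) ^ 3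
        + b * (y₁ - (Wab a b).toAffine.slope x₁ x₂ y₁ y₂ * x₁)
          * ((Wab a b).toAffine.slope x₁ x₂ y₁ y₂ + α) ^ 2 := by
  obtain ⟨e₁, e₂, e₃⟩ := Kernel.vieta_of_slope h₁ h₂ hxy
  have hl₂ := line_snd h₁ h₂ hxy
  have hl₃ := line_third (Wab a b).toAffine x₁ x₂ y₁ ((Wab a b).toAffine.slope x₁ x₂ y₁ y₂)
  simp only [Wab_a₁, Wab_a₂, Wab_a₃, Wab_a₄, Wab_a₆] at e₁ e₂ e₃
  generalize (Wab a b).toAffine.negAddY x₁ x₂ y₁ ((Wab a b).toAffine.slope x₁ x₂ y₁ y₂) = y₃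
    at hl₃ ⊢
  generalize (Wab a b).toAffine.addX x₁ x₂ ((Wab a b).toAffine.slope x₁ x₂ y₁ y₂) = x₃
    at e₁ e₂ e₃ hl₃ ⊢
  generalize (Wab a b).toAffine.slope x₁ x₂ y₁ y₂ = ℓ at e₁ e₂ e₃ hl₂ hl₃ ⊢
  have hl₁ : y₁ = ℓ * x₁ + (y₁ - ℓ * x₁) := by ring
  generalize y₁ - ℓ * x₁ = ν at e₁ e₂ e₃ hl₁ hl₂ hl₃ ⊢
  subst hα
  constructor
  · rw [hl₁, hl₂, hl₃]
    linear_combination (ℓ - α) ^ 3 * e₃ + (ℓ - α) ^ 2 * ν * e₂ + (ℓ - α) * ν ^ 2 * e₁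
  · rw [hl₁, hl₂, hl₃]
    linear_combination (ℓ + α) ^ 3 * e₃ + (ℓ + α) ^ 2 * ν * e₂ + (ℓ + α) * ν ^ 2 * e₁

end Fermat.Agent.MP.PEU.LineId4
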