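/-
Programme MP, chapter PEU (helper4), file E1Hom4: **`u = (Y - α X)/(Y + α X)` is an approximate
homomorphism `E₁ → 𝔾ₘ`** on the model `Wab a b` (`α² = a`, `a`, `b` integral).

* `uf α P` : the function `u` on points (`u(O) = 1`);
* `uf_neg` : `u(-P) u(P) = 1` on `E₁`;
* `uf_sub_one` : `u(P) - 1 = 2 α z / (1 - α z)`, `z = zc P = -x/y`; `val_uf_sub_one`;
* `uf_add` : for `P₁, P₂ ∈ E₁` with `|z(Pᵢ)| ≤ r < 1`:
  `u(P₁) u(P₂) = u(P₁ + P₂) (1 + ε)` with `|ε| ≤ |b| r⁴`;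
* `uf_nsmul` : `u(P)ⁿ = u(n • P) (1 + ε)` with `|ε| ≤ |b| r⁴`.
-/
import Mathlib
import Fermat.Agent.S05.Defs
import Fermat.Agent.S05.Kernel
import Fermat.Agent.MP.PEU.LineId4

set_option autoImplicit false
set_option linter.unusedSectionVars false
set_option linter.style.longLine false

namespace Fermat.Agent.MP.PEU.E1Hom4

open WeierstrassCurve WeierstrassCurve.Affine Fermat.Agent.S05 Fermat.Agent.S05.Kernel
open Fermat.Agent.MP.PEU.LineId4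

variable {K : Type*} [Field K] [DecidableEq K] {Γ₀ : Type*} [LinearOrderedCommGroupWithZero Γ₀]
  {v : Valuation K Γ₀} {a b : K}

/-- the function `u = (Y - α X) / (Y + α X)` on points, `u(O) = 1`. -/
def uf (α : K) : (Wab a b).toAffine.Point → K
  | .zero => 1
  | .some x y _ => (y - α * x) / (y + α * x)

@[simp] theorem uf_zero (α : K) : uf α (0 : (Wab a b).toAffine.Point) = 1 := rfl

@[simp] theorem uf_some (α : K) {x y : K} (h : (Wab a b).toAffine.Nonsingular x y) :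
    uf α (Point.some x y h) = (y - α * x) / (y + α * x) := rfl

theorem integralCoeffs_Wab (ha : v a ≤ 1) (hb : v b ≤ 1) :
    IntegralCoeffs v (Wab a b).toAffine :=
  ⟨by simp, by simpa using ha, by simp, by simpa using hb, by simp⟩

/-- for a point of `E₁`, `y ± α x ≠ 0` and `|y ± α x| = |y|`. -/
theorem val_y_add (ha : v a ≤ 1) (hb : v b ≤ 1) {α : K} (hαv : v α ≤ 1) {x y : K}
    (h : (Wab a b).toAffine.Equation x y) (hx : 1 < v x) :
    v (y + α * x) = v y ∧ v (y - α * x) = v y ∧ y ≠ 0 := by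
  obtain ⟨hxy, -⟩ := vy_of_vx (integralCoeffs_Wab ha hb) h hx
  have hαx : v (α * x) < v y := lt_of_le_of_lt (vle_int_mul hαv le_rfl) hxy
  refine ⟨v.map_add_eq_of_lt_left hαx, v.map_sub_eq_of_lt_left hαx, ?_⟩
  rintro rfl
  rw [map_zero] at hxy
  exact not_lt_zero hxy

/-- `u(-P) u(P) = 1` on `E₁`. -/
theorem uf_neg (ha : v a ≤ 1) (hb : v b ≤ 1) {α : K} (hαv : v α ≤ 1)
    {P : (Wab a b).toAffine.Point} (hP : Kernel.InE1 v P) : uf α (-P) * uf α P = 1 := by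
  rcases hP with rfl | ⟨x, y, h, rfl, hx⟩
  · simp
  · obtain ⟨h1, h2, -⟩ := val_y_add ha hb hαv h.1 hx
    have hy0 : v y ≠ 0 := by
      obtain ⟨hxy, -⟩ := vy_of_vx (integralCoeffs_Wab ha hb) h.1 hx
      exact (lt_trans (lt_trans zero_lt_one hx) hxy).ne'
    have hd : y + α * x ≠ 0 := by
      intro h0; rw [h0, map_zero] at h1; exact hy0 h1.symm
    have hn : y - α * x ≠ 0 := by
      intro h0; rw [h0, map_zero] at h2; exact hy0 h2.symm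
    rw [Point.neg_some, uf_some, uf_some, Wab_negY]
    have hn' : -y + α * x ≠ 0 := by
      intro h0; apply hn; linear_combination -h0
    field_simp
    ring

/-- `u(P) - 1` in terms of `z = -x/y`. -/
theorem uf_sub_one (ha : v a ≤ 1) (hb : v b ≤ 1) {α : K} (hαv : v α ≤ 1)
    {P : (Wab a b).toAffine.Point} (hP : Kernel.InE1 v P) :
    v (1 - α * zc P) = 1 ∧ uf α P - 1 = 2 * α * zc P / (1 - α * zc P) := by
  rcases hP with rfl | ⟨x, y, h, rfl, hx⟩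
  · simp
  · obtain ⟨h1, h2, hy⟩ := val_y_add ha hb hαv h.1 hx
    have hz := (zw_of_vx (integralCoeffs_Wab ha hb) h.1 hx).2.1
    have hd : y + α * x ≠ 0 := by
      intro h0; rw [h0, map_zero] at h1
      exact ((Valuation.ne_zero_iff v).mpr hy) h1.symm
    rw [zc_some, uf_some]
    have h3 : v (α * (-x / y)) < 1 := lt_of_le_of_lt (vle_int_mul hαv le_rfl) hz
    refine ⟨v.map_one_sub_of_lt h3, ?_⟩
    have h4 : 1 - α * (-x / y) ≠ 0 := by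
      intro h0
      have := v.map_one_sub_of_lt h3
      rw [h0, map_zero] at this
      exact zero_ne_one this
    have h5 : 1 - α * (-x / y) = (y + α * x) / y := by
      field_simp
      ring
    rw [h5]
    field_simp
    ring

/-- `|u(P) - 1| = |z(P)|` when `2 α` is a unit. -/
theorem val_uf_sub_one (h2 : v (2 : K) = 1) (ha : v a ≤ 1) (hb : v b ≤ 1) {α : K}
    (hαv : v α = 1) {P : (Wab a b).toAffine.Point} (hP : Kernel.InE1 v P) :
    v (uf α P - 1) = v (zc P) := by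
  obtain ⟨h3, h4⟩ := uf_sub_one ha hb hαv.le hP
  rw [h4, map_div₀, h3, div_one, map_mul, map_mul, h2, hαv, one_mul, one_mul]

/-- `u(P)` is a unit on `E₁`. -/
theorem val_uf (ha : v a ≤ 1) (hb : v b ≤ 1) {α : K} (hαv : v α ≤ 1)
    {P : (Wab a b).toAffine.Point} (hP : Kernel.InE1 v P) : v (uf α P) = 1 := by
  rcases hP with rfl | ⟨x, y, h, rfl, hx⟩
  · simp
  · obtain ⟨h1, h2, hy⟩ := val_y_add ha hb hαv h.1 hx
    rw [uf_some, map_div₀, h1, h2, div_self ((Valuation.ne_zero_iff v).mpr hy)]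

/-- **The approximate homomorphism property on `E₁`, coordinate form.** -/
theorem uf_add_coord (ha : v a ≤ 1) (hb : v b ≤ 1) {α : K} (hα : α ^ 2 = a) (hαv : v α ≤ 1)
    {r : Γ₀} (hr : r < 1) {x₁ y₁ x₂ y₂ : K}
    (h₁ : (Wab a b).toAffine.Equation x₁ y₁) (h₂ : (Wab a b).toAffine.Equation x₂ y₂)
    (hx₁ : 1 < v x₁) (hx₂ : 1 < v x₂) (hz₁ : v (-x₁ / y₁) ≤ r) (hz₂ : v (-x₂ / y₂) ≤ r)
    (hxy : ¬(x₁ = x₂ ∧ y₁ = (Wab a b).toAffine.negY x₂ y₂)) :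
    ∃ ε : K, v ε ≤ v b * r ^ 4 ∧
      (y₁ - α * x₁) / (y₁ + α * x₁) * ((y₂ - α * x₂) / (y₂ + α * x₂))
        = ((Wab a b).toAffine.addY x₁ x₂ y₁ ((Wab a b).toAffine.slope x₁ x₂ y₁ y₂)
            - α * (Wab a b).toAffine.addX x₁ x₂ ((Wab a b).toAffine.slope x₁ x₂ y₁ y₂))
          / ((Wab a b).toAffine.addY x₁ x₂ y₁ ((Wab a b).toAffine.slope x₁ x₂ y₁ y₂)
            + α * (Wab a b).toAffine.addX x₁ x₂ ((Wab a b).toAffine.slope x₁ x₂ y₁ y₂))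
          * (1 + ε) := by
  have hW := integralCoeffs_Wab (v := v) ha hb
  obtain ⟨hy₁, -, -, hw₁⟩ := zw_of_vx hW h₁ hx₁
  obtain ⟨hy₂, -, -, hw₂⟩ := zw_of_vx hW h₂ hx₂
  have hr1 : r ≤ 1 := hr.le
  have hr32 : r ^ 3 ≤ r ^ 2 := pow_le_pow_right_of_le_one' hr1 (by norm_num)
  have hw₁' : v (-1 / y₁) ≤ r ^ 2 := by
    rw [hw₁]; exact (pow_le_pow_left' hz₁ 3).trans hr32
  have hw₂' : v (-1 / y₂) ≤ r ^ 2 := by
    rw [hw₂]; exact (pow_le_pow_left' hz₂ 3).trans hr32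
  obtain ⟨hN, hD, hM, -, -⟩ := zw_estimates hW hr hz₁ hz₂ hw₁' hw₂'
  have hDne : slD (Wab a b).toAffine (-x₂ / y₂) (-1 / y₁) (-1 / y₂) ≠ 0 := by
    intro h0; rw [h0, map_zero] at hD; exact zero_ne_one hD
  obtain ⟨hℓM, hνM, -⟩ := slope_rel h₁ h₂ hy₁ hy₂ hxy hDne
  -- the sum lies in `E₁`
  obtain ⟨hx₃, -⟩ := add_coord_estimate hW hr h₁ h₂ hx₁ hx₂ hz₁ hz₂ hxy
  have heq₃ := equation_negAdd h₁ h₂ hxy
  obtain ⟨hid₁, hid₂⟩ := line_identity hα h₁ h₂ hxy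
  obtain ⟨hd₁, hn₁, -⟩ := val_y_add ha hb hαv h₁ hx₁
  obtain ⟨hd₂, hn₂, -⟩ := val_y_add ha hb hαv h₂ hx₂
  obtain ⟨hd₃, hn₃, hy₃⟩ := val_y_add ha hb hαv heq₃ hx₃
  have hvy₁ : v y₁ ≠ 0 := (Valuation.ne_zero_iff v).mpr hy₁
  have hvy₂ : v y₂ ≠ 0 := (Valuation.ne_zero_iff v).mpr hy₂
  have hvy₃ := (Valuation.ne_zero_iff v).mpr hy₃
  have hD₁ : y₁ + α * x₁ ≠ 0 := by
    intro h0; rw [h0, map_zero] at hd₁; exact hvy₁ hd₁.symm
  have hD₂ : y₂ + α * x₂ ≠ 0 := by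
    intro h0; rw [h0, map_zero] at hd₂; exact hvy₂ hd₂.symm
  rw [addY, Wab_negY]
  generalize (Wab a b).toAffine.negAddY x₁ x₂ y₁ ((Wab a b).toAffine.slope x₁ x₂ y₁ y₂) = y₃
    at hid₁ hid₂ hd₃ hn₃ hy₃ hvy₃ heq₃ ⊢
  generalize (Wab a b).toAffine.addX x₁ x₂ ((Wab a b).toAffine.slope x₁ x₂ y₁ y₂) = x₃
    at hid₁ hid₂ hd₃ hn₃ hx₃ heq₃ ⊢
  have hD₃ : y₃ + α * x₃ ≠ 0 := by
    intro h0; rw [h0, map_zero] at hd₃; exact hvy₃ hd₃.symm
  have hN₃ : y₃ - α * x₃ ≠ 0 := by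
    intro h0; rw [h0, map_zero] at hn₃; exact hvy₃ hn₃.symm
  generalize (Wab a b).toAffine.slope x₁ x₂ y₁ y₂ = ℓ at hℓM hνM hid₁ hid₂
  generalize y₁ - ℓ * x₁ = ν at hℓM hνM hid₁ hid₂
  set M : K := -1 / y₁ * slD (Wab a b).toAffine (-x₂ / y₂) (-1 / y₁) (-1 / y₂)
      - -x₁ / y₁ * slN (Wab a b).toAffine (-x₁ / y₁) (-x₂ / y₂) (-1 / y₁) with hMdef
  have hMe : slM (Wab a b).toAffine (-x₁ / y₁) (-x₂ / y₂) (-1 / y₁) (-1 / y₂) = M := rfl
  rw [hMe] at hM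
  generalize slN (Wab a b).toAffine (-x₁ / y₁) (-x₂ / y₂) (-1 / y₁) = N at hN hℓM hMdef
  generalize slD (Wab a b).toAffine (-x₂ / y₂) (-1 / y₁) (-1 / y₂) = D at hD hDne hℓM hνM hMdef
  clear_value M
  -- the two sides of the line identity, multiplied by `M ^ 3`
  have hA : (y₁ - α * x₁) * (y₂ - α * x₂) * (y₃ - α * x₃) * M ^ 3
      = -D * (D ^ 2 + b * (N - α * M) ^ 2) := by
    rw [hid₁]
    have : (ν ^ 3 + b * ν * (ℓ - α) ^ 2) * M ^ 3
        = (ν * M) ^ 3 + b * (ν * M) * (ℓ * M - α * M) ^ 2 := by ring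
    rw [this, hℓM, hνM]; ring
  have hB : (y₁ + α * x₁) * (y₂ + α * x₂) * (y₃ + α * x₃) * M ^ 3
      = -D * (D ^ 2 + b * (N + α * M) ^ 2) := by
    rw [hid₂]
    have : (ν ^ 3 + b * ν * (ℓ + α) ^ 2) * M ^ 3
        = (ν * M) ^ 3 + b * (ν * M) * (ℓ * M + α * M) ^ 2 := by ring
    rw [this, hℓM, hνM]; ring
  -- valuations
  have hr2 : r ^ 2 < 1 := lt_of_le_of_lt
    (by simpa using pow_le_pow_right_of_le_one' hr1 (show 1 ≤ 2 by norm_num)) hr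
  have hαM : v (α * M) ≤ r ^ 2 := vle_int_mul hαv hM
  have hNp : v (N + α * M) ≤ r ^ 2 := v.map_add_le hN hαM
  have hNm : v (N - α * M) ≤ r ^ 2 := v.map_sub_le hN hαM
  have hbN : v (b * (N + α * M) ^ 2) < 1 := by
    refine lt_of_le_of_lt (vle_int_mul hb ?_) hr2
    rw [sq]; exact vle_int_mul (hNp.trans hr2.le) hNp
  have hD2 : v (D ^ 2) = 1 := by rw [map_pow, hD, one_pow]
  have hden : v (D ^ 2 + b * (N + α * M) ^ 2) = 1 := by
    rw [v.map_add_eq_of_lt_left (by rw [hD2]; exact hbN), hD2]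
  have hden0 : D ^ 2 + b * (N + α * M) ^ 2 ≠ 0 := by
    intro h0; rw [h0, map_zero] at hden; exact zero_ne_one hden
  refine ⟨-(4 * b * α * N * M) / (D ^ 2 + b * (N + α * M) ^ 2), ?_, ?_⟩
  · rw [map_div₀, hden, div_one, Valuation.map_neg]
    have h4 : v (4 : K) ≤ 1 := by simpa using vle_natCast (v := v) 4
    have e : 4 * b * α * N * M = (4 * α) * (b * (N * M)) := by ring
    rw [e]
    refine vle_int_mul (vle_int_mul h4 hαv) ?_
    rw [map_mul]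
    refine mul_le_mul' le_rfl ?_
    have : r ^ 4 = r ^ 2 * r ^ 2 := by rw [← pow_add]
    rw [this]
    exact vle_mul hN hM
  · -- `M ≠ 0`
    have hM0 : M ≠ 0 := by
      rintro rfl
      rw [mul_zero] at hνM
      exact hDne (neg_eq_zero.mp hνM.symm)
    have hM3 : M ^ 3 ≠ 0 := pow_ne_zero 3 hM0
    have hD₃' : -y₃ + α * x₃ ≠ 0 := by
      intro h0; apply hN₃; linear_combination -h0
    have hN₃' : -y₃ - α * x₃ ≠ 0 := by
      intro h0; apply hD₃; linear_combination -h0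
    rw [div_mul_div_comm, div_mul_eq_mul_div, div_eq_div_iff (mul_ne_zero hD₁ hD₂) hD₃']
    have h1 : (1 : K) + -(4 * b * α * N * M) / (D ^ 2 + b * (N + α * M) ^ 2)
        = (D ^ 2 + b * (N - α * M) ^ 2) / (D ^ 2 + b * (N + α * M) ^ 2) := by
      field_simp
      ring
    rw [h1, mul_div_assoc', div_mul_eq_mul_div, eq_div_iff hden0]
    apply mul_right_cancel₀ hM3
    apply mul_left_cancel₀ (neg_ne_zero.mpr hDne)
    have hA' := hA
    have hB' := hB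
    linear_combination
      (D * (D ^ 2 + b * (N + α * M) ^ 2)) * hA' - (D * (D ^ 2 + b * (N - α * M) ^ 2)) * hB'

/-- **The approximate homomorphism property on `E₁`.** -/
theorem uf_add (ha : v a ≤ 1) (hb : v b ≤ 1) {α : K} (hα : α ^ 2 = a) (hαv : v α ≤ 1)
    {r : Γ₀} (hr : r < 1) {P₁ P₂ : (Wab a b).toAffine.Point}
    (h₁ : Kernel.InE1 v P₁) (h₂ : Kernel.InE1 v P₂) (hz₁ : v (zc P₁) ≤ r) (hz₂ : v (zc P₂) ≤ r) :
    ∃ ε : K, v ε ≤ v b * r ^ 4 ∧ uf α P₁ * uf α P₂ = uf α (P₁ + P₂) * (1 + ε) := by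
  rcases h₁ with rfl | ⟨x₁, y₁, hn₁, rfl, hx₁⟩
  · exact ⟨0, by simp, by simp⟩
  rcases h₂ with rfl | ⟨x₂, y₂, hn₂, rfl, hx₂⟩
  · exact ⟨0, by simp, by simp⟩
  rw [zc_some] at hz₁ hz₂
  by_cases hxy : x₁ = x₂ ∧ y₁ = (Wab a b).toAffine.negY x₂ y₂
  · refine ⟨0, by simp, ?_⟩
    have e : (Point.some x₁ y₁ hn₁ : (Wab a b).toAffine.Point) = -Point.some x₂ y₂ hn₂ := by
      rw [Point.neg_some]
      obtain ⟨rfl, rfl⟩ := hxy
      rfl
    rw [e, neg_add_cancel, uf_zero, add_zero, mul_one]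
    exact uf_neg ha hb hαv ((inE1_some v hn₂).mpr hx₂)
  · rw [Point.add_some hxy, uf_some, uf_some, uf_some]
    exact uf_add_coord ha hb hα hαv hr hn₁.1 hn₂.1 hx₁ hx₂ hz₁ hz₂ hxy

/-- multiples: `u(P)ⁿ = u(n • P) (1 + ε)`, `|ε| ≤ |b| r⁴`. -/
theorem uf_nsmul (ha : v a ≤ 1) (hb : v b ≤ 1) {α : K} (hα : α ^ 2 = a) (hαv : v α ≤ 1)
    {r : Γ₀} (hr : r < 1) {P : (Wab a b).toAffine.Point}
    (hP : Kernel.InE1 v P) (hz : v (zc P) ≤ r) (n : ℕ) :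
    ∃ ε : K, v ε ≤ v b * r ^ 4 ∧ uf α P ^ n = uf α (n • P) * (1 + ε) := by
  have hW := integralCoeffs_Wab (v := v) ha hb
  have hr1 : r ≤ 1 := hr.le
  have hr2le : r ^ 2 ≤ r := by
    simpa using pow_le_pow_right_of_le_one' hr1 (show 1 ≤ 2 by norm_num)
  have hbr : v b * r ^ 4 < 1 := by
    refine lt_of_le_of_lt (mul_le_mul' hb le_rfl) ?_
    rw [one_mul]
    exact lt_of_le_of_lt (by simpa using pow_le_pow_right_of_le_one' hr1 (show 1 ≤ 4 by norm_num)) hr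
  induction n with
  | zero => exact ⟨0, by simp, by simp⟩
  | succ n ih =>
    obtain ⟨ε₁, hε₁, e₁⟩ := ih
    obtain ⟨hn₁, hn₂⟩ := nsmul_estimate hW hr hP hz n
    have hzn : v (zc (n • P)) ≤ r := by
      have : zc (n • P) = (zc (n • P) - n * zc P) + n * zc P := by ring
      rw [this]
      exact v.map_add_le (hn₂.trans hr2le) (vle_int_mul (vle_natCast n) hz)
    obtain ⟨ε₂, hε₂, e₂⟩ := uf_add ha hb hα hαv hr hn₁ hP hzn hz
    refine ⟨ε₁ + ε₂ + ε₁ * ε₂, ?_, ?_⟩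
    · refine v.map_add_le (v.map_add_le hε₁ hε₂) ?_
      exact vle_int_mul (hε₁.trans hbr.le) hε₂
    · rw [pow_succ, e₁, succ_nsmul]
      have : uf α (n • P) * (1 + ε₁) * uf α P = (uf α (n • P) * uf α P) * (1 + ε₁) := by ring
      rw [this, e₂]
      ring

end Fermat.Agent.MP.PEU.E1Hom4
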