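/-
Programme MP, chapter PEU (helper4), file V1Mu4: **the `p`-torsion of `E₁` embeds into `μ_p`**
(model `Wab a b`, generic valued field).

Hypotheses: `v 2 = 1`, `α² = a`, `v α = 1`, `v b ≤ v p ^ 2`, `p` an odd prime with `v p < 1`, `ζ` a
primitive `p`-th root of unity, `lam = ζ - 1`.

* `exists_close` : `P ∈ E₁`, `p • P = 0` ⟹ `∃ k < p, v (u(P) - ζ ^ k) < v lam`;
* `eq_zero_of_close_one` : `P ∈ E₁`, `p • P = 0`, `v (u(P) - 1) < v lam` ⟹ `P = 0`;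
* `close_add` : `v (u(P) - ζ^j) < v lam`, `v (u(Q) - ζ^k) < v lam` ⟹ `v (u(P+Q) - ζ^(j+k)) < v lam`
  (`P, Q ∈ E₁`);
* `val_uf_sub_one_of_torsion` : `P ∈ E₁`, `p • P = 0`, `P ≠ 0` ⟹ `v (u(P) - 1) = v lam`.
-/
import Mathlib
import Fermat.Agent.MP.PEU.E1Hom4
import Fermat.Agent.MP.PEU.Cyclo4

set_option autoImplicit false
set_option linter.unusedSectionVars false
set_option linter.style.longLine false

namespace Fermat.Agent.MP.PEU.V1Mu4

open WeierstrassCurve WeierstrassCurve.Affine Fermat.Agent.S05 Fermat.Agent.S05.Kernel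
open Fermat.Agent.MP.PEU.E1Hom4 Fermat.Agent.MP.PEU.Cyclo4

variable {K : Type*} [Field K] [DecidableEq K] {Γ₀ : Type*} [LinearOrderedCommGroupWithZero Γ₀]
  {v : Valuation K Γ₀} {a b α ζ : K} {p : ℕ}

/-- `v b ≤ v p ^ 2 < v lam`, `< v lam ^ p`. -/
theorem val_b_lt (hp : p.Prime) (hp2 : p ≠ 2) (hζ : IsPrimitiveRoot ζ p) (hvp : v (p : K) < 1)
    (hb : v b ≤ v (p : K) ^ 2) : v b < v (ζ - 1) ^ p ∧ v b < v (ζ - 1) ∧ v b < v (p : K) := by
  have hl := val_p_lt_lam hp hp2 hζ hvp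
  have hl1 := val_lam_lt_one hp hζ hvp
  have hp0 : 0 < v (p : K) := by
    rw [← val_lam_pow hp hζ]; exact pow_pos (val_lam_pos hp hζ) _
  have h1 : v (p : K) ^ 2 < v (p : K) := by
    rw [sq]
    calc v (p : K) * v (p : K) < v (p : K) * 1 := (mul_lt_mul_iff_right₀ hp0).mpr hvp
      _ = v (p : K) := mul_one _
  have h2 : v (p : K) ^ 2 < v (ζ - 1) ^ p := by
    have e : v (ζ - 1) ^ p = v (p : K) * v (ζ - 1) := by
      rw [← val_lam_pow hp hζ, ← pow_succ, Nat.sub_add_cancel hp.one_le]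
    rw [e, sq]
    exact (mul_lt_mul_iff_right₀ hp0).mpr hl
  exact ⟨lt_of_le_of_lt hb h2, lt_of_le_of_lt hb (h1.trans hl), lt_of_le_of_lt hb h1⟩

variable (h2 : v (2 : K) = 1) (hα : α ^ 2 = a) (hαv : v α = 1)
include h2 hα hαv

theorem val_a : v a = 1 := by rw [← hα, map_pow, hαv, one_pow]

/-- a torsion point of `E₁` is close to a `p`-th root of unity. -/
theorem exists_close (hp : p.Prime) (hp2 : p ≠ 2) (hζ : IsPrimitiveRoot ζ p)
    (hvp : v (p : K) < 1) (hb : v b ≤ v (p : K) ^ 2) {P : (Wab a b).toAffine.Point}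
    (hP : Kernel.InE1 v P) (hpP : p • P = 0) :
    ∃ k < p, v (uf α P - ζ ^ k) < v (ζ - 1) := by
  have ha : v a ≤ 1 := (val_a h2 hα hαv).le
  obtain ⟨hb1, hb2, hb3⟩ := val_b_lt hp hp2 hζ hvp hb
  have hb' : v b ≤ 1 := (hb3.trans hvp).le
  have hr := hP.zc_lt_one (integralCoeffs_Wab ha hb')
  obtain ⟨ε, hε, e⟩ := uf_nsmul ha hb' hα hαv.le hr hP le_rfl p
  rw [hpP, uf_zero, one_mul] at e
  apply exists_close_of_pow hp hζ
  rw [e, add_sub_cancel_left]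
  refine lt_of_le_of_lt hε (lt_of_le_of_lt ?_ hb1)
  calc v b * v (zc P) ^ 4 ≤ v b * 1 := mul_le_mul' le_rfl (pow_le_one₀ zero_le hr.le)
    _ = v b := mul_one _

/-- a torsion point of `E₁` with `u` close to `1` is zero. -/
theorem eq_zero_of_close_one (hp : p.Prime) (hp2 : p ≠ 2) (hζ : IsPrimitiveRoot ζ p)
    (hvp : v (p : K) < 1) (hb : v b ≤ v (p : K) ^ 2) {P : (Wab a b).toAffine.Point}
    (hP : Kernel.InE1 v P) (hpP : p • P = 0) (hc : v (uf α P - 1) < v (ζ - 1)) : P = 0 := by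
  by_contra h0
  have ha : v a ≤ 1 := (val_a h2 hα hαv).le
  obtain ⟨hb1, hb2, hb3⟩ := val_b_lt hp hp2 hζ hvp hb
  have hb' : v b ≤ 1 := (hb3.trans hvp).le
  have hW := integralCoeffs_Wab (v := v) ha hb'
  have hr := hP.zc_lt_one hW
  have hr0 := hP.zc_pos hW h0
  obtain ⟨ε, hε, e⟩ := uf_nsmul ha hb' hα hαv.le hr hP le_rfl p
  rw [hpP, uf_zero, one_mul] at e
  have h3 := val_pow_sub_one_of_close hp hζ hc
  rw [e, add_sub_cancel_left, val_uf_sub_one h2 ha hb' hαv hP] at h3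
  rw [h3] at hε
  -- `v p * r ≤ v b * r ^ 4 < v p * r`
  have hp0 : 0 < v (p : K) := by
    rw [← val_lam_pow hp hζ]; exact pow_pos (val_lam_pos hp hζ) _
  have h4 : v b * v (zc P) ^ 4 < v (p : K) * v (zc P) := by
    have h5 : v (zc P) ^ 4 ≤ v (zc P) := by
      simpa using pow_le_pow_right_of_le_one' hr.le (show 1 ≤ 4 by norm_num)
    calc v b * v (zc P) ^ 4 ≤ v b * v (zc P) := mul_le_mul' le_rfl h5
      _ < v (p : K) * v (zc P) := (mul_lt_mul_iff_left₀ hr0).mpr hb3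
  exact absurd hε (not_le.mpr h4)

/-- additivity of the close root of unity. -/
theorem close_add (hp : p.Prime) (hp2 : p ≠ 2) (hζ : IsPrimitiveRoot ζ p)
    (hvp : v (p : K) < 1) (hb : v b ≤ v (p : K) ^ 2) {P Q : (Wab a b).toAffine.Point}
    (hP : Kernel.InE1 v P) (hQ : Kernel.InE1 v Q) {j k : ℕ}
    (hj : v (uf α P - ζ ^ j) < v (ζ - 1)) (hk : v (uf α Q - ζ ^ k) < v (ζ - 1)) :
    v (uf α (P + Q) - ζ ^ (j + k)) < v (ζ - 1) := by
  have ha : v a ≤ 1 := (val_a h2 hα hαv).le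
  obtain ⟨hb1, hb2, hb3⟩ := val_b_lt hp hp2 hζ hvp hb
  have hb' : v b ≤ 1 := (hb3.trans hvp).le
  have hW := integralCoeffs_Wab (v := v) ha hb'
  have hr₁ := hP.zc_lt_one hW
  have hr₂ := hQ.zc_lt_one hW
  obtain ⟨ε, hε, e⟩ := uf_add ha hb' hα hαv.le (max_lt hr₁ hr₂) hP hQ (le_max_left _ _)
    (le_max_right _ _)
  have hε' : v ε < v (ζ - 1) := by
    refine lt_of_le_of_lt hε (lt_of_le_of_lt ?_ hb2)
    calc v b * max (v (zc P)) (v (zc Q)) ^ 4 ≤ v b * 1 :=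
          mul_le_mul' le_rfl (pow_le_one₀ zero_le (max_lt hr₁ hr₂).le)
      _ = v b := mul_one _
  have hPQ : Kernel.InE1 v (P + Q) :=
    (add_estimate hW (max_lt hr₁ hr₂) hP hQ (le_max_left _ _) (le_max_right _ _)).1
  have hu := val_uf (α := α) ha hb' hαv.le hPQ
  have hQ1 := val_uf (α := α) ha hb' hαv.le hQ
  have e2 : uf α (P + Q) - ζ ^ (j + k)
      = (uf α P - ζ ^ j) * uf α Q + ζ ^ j * (uf α Q - ζ ^ k) - uf α (P + Q) * ε := by
    rw [pow_add]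
    linear_combination (-1 : K) * e
  rw [e2]
  refine lt_of_le_of_lt (v.map_sub _ _) (max_lt (lt_of_le_of_lt (v.map_add _ _) (max_lt ?_ ?_)) ?_)
  · rw [map_mul, hQ1, mul_one]; exact hj
  · rw [map_mul, val_zeta_pow hp hζ, one_mul]; exact hk
  · rw [map_mul, hu, one_mul]; exact hε'

/-- a nonzero torsion point of `E₁` has `|u - 1| = |lam|`. -/
theorem val_uf_sub_one_of_torsion (hp : p.Prime) (hp2 : p ≠ 2) (hζ : IsPrimitiveRoot ζ p)
    (hvp : v (p : K) < 1) (hb : v b ≤ v (p : K) ^ 2) {P : (Wab a b).toAffine.Point}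
    (hP : Kernel.InE1 v P) (hpP : p • P = 0) (h0 : P ≠ 0) : v (uf α P - 1) = v (ζ - 1) := by
  obtain ⟨k, hk, hc⟩ := exists_close h2 hα hαv hp hp2 hζ hvp hb hP hpP
  have hk0 : ¬ p ∣ k := by
    intro hd
    obtain rfl : k = 0 := Nat.eq_zero_of_dvd_of_lt hd hk
    rw [pow_zero] at hc
    exact h0 (eq_zero_of_close_one h2 hα hαv hp hp2 hζ hvp hb hP hpP hc)
  have e : uf α P - 1 = (uf α P - ζ ^ k) + (ζ ^ k - 1) := by ring
  rw [e, v.map_add_eq_of_lt_right (by rwa [val_pow_sub_one hp hζ hk0]),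
    val_pow_sub_one hp hζ hk0]

end Fermat.Agent.MP.PEU.V1Mu4
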