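/-
Programme MP, chapter PEU (helper4), file Break4: **the dichotomy break-1 element / split**
(model `Wab a b`, generic valued field; same hypotheses as V1Mu4).

`T ∈ E₁`, `R = p • T`, `w = u(T)`, `ρ = v (z(R))` (`z = -x/y`).

* `val_pow_eq_of_val_p` : `ρ = v p ⟹ v (w - 1) ^ p = v p`                      (break-1 element);
* `exists_close_of_val_le` : `ρ ≤ v p ^ 2 ⟹ ∃ j < p, v (w - ζ ^ j) < v lam`        (split case);
* `val_uf_add_sub` : `L ∈ E₁`, `v (u(L) - 1) = v lam ⟹ v (u(T + L) - u(T)) = v lam`;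
* `dvd_of_close` : `v (u(T) - ζ^j) < v lam`, `v (u(L) - ζ^k) < v lam`, `v (u(T+L) - ζ^j) < v lam`
  `⟹ p ∣ k`.
-/
import Mathlib
import Fermat.Agent.MP.PEU.V1Mu4

set_option autoImplicit false
set_option linter.unusedSectionVars false
set_option linter.style.longLine false

namespace Fermat.Agent.MP.PEU.Break4

open WeierstrassCurve WeierstrassCurve.Affine Fermat.Agent.S05 Fermat.Agent.S05.Kernel
open Fermat.Agent.MP.PEU.E1Hom4 Fermat.Agent.MP.PEU.Cyclo4 Fermat.Agent.MP.PEU.V1Mu4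

variable {K : Type*} [Field K] [DecidableEq K] {Γ₀ : Type*} [LinearOrderedCommGroupWithZero Γ₀]
  {v : Valuation K Γ₀} {a b α ζ : K} {p : ℕ}

variable (h2 : v (2 : K) = 1) (hα : α ^ 2 = a) (hαv : v α = 1)
  (hp : p.Prime) (hp2 : p ≠ 2) (hζ : IsPrimitiveRoot ζ p) (hvp : v (p : K) < 1)
  (hb : v b ≤ v (p : K) ^ 2)
include h2 hα hαv hp hp2 hζ hvp hb

/-- `u(T)^p - 1` in terms of `u(p • T) - 1`. -/
theorem pow_sub_one_eq {T : (Wab a b).toAffine.Point} (hT : Kernel.InE1 v T) :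
    ∃ ε : K, v ε ≤ v b ∧ uf α T ^ p - 1 = (uf α (p • T) - 1) + uf α (p • T) * ε := by
  have ha : v a ≤ 1 := (val_a h2 hα hαv).le
  obtain ⟨hb1, hb2, hb3⟩ := val_b_lt hp hp2 hζ hvp hb
  have hb' : v b ≤ 1 := (hb3.trans hvp).le
  have hr := hT.zc_lt_one (integralCoeffs_Wab ha hb')
  obtain ⟨ε, hε, e⟩ := uf_nsmul ha hb' hα hαv.le hr hT le_rfl p
  refine ⟨ε, hε.trans ?_, by rw [e]; ring⟩
  calc v b * v (zc T) ^ 4 ≤ v b * 1 := mul_le_mul' le_rfl (pow_le_one₀ zero_le hr.le)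
    _ = v b := mul_one _

/-- **break-1 element**: if `z(p • T)` has the valuation of `p` then `v (u(T) - 1) ^ p = v p`. -/
theorem val_pow_eq_of_val_p {T : (Wab a b).toAffine.Point} (hT : Kernel.InE1 v T)
    (hR : v (zc (p • T)) = v (p : K)) : v (uf α T - 1) ^ p = v (p : K) := by
  have ha : v a ≤ 1 := (val_a h2 hα hαv).le
  obtain ⟨hb1, hb2, hb3⟩ := val_b_lt hp hp2 hζ hvp hb
  have hb' : v b ≤ 1 := (hb3.trans hvp).le
  have hW := integralCoeffs_Wab (v := v) ha hb'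
  have hRE : Kernel.InE1 v (p • T) :=
    (nsmul_estimate hW (hT.zc_lt_one hW) hT le_rfl p).1
  obtain ⟨ε, hε, e⟩ := pow_sub_one_eq h2 hα hαv hp hp2 hζ hvp hb hT
  have h1 : v (uf α (p • T) - 1) = v (p : K) := by
    rw [val_uf_sub_one h2 ha hb' hαv hRE, hR]
  have h3 : v (uf α (p • T) * ε) < v (p : K) := by
    rw [map_mul, val_uf ha hb' hαv.le hRE, one_mul]
    exact lt_of_le_of_lt hε hb3
  have h4 : v (uf α T ^ p - 1) = v (p : K) := by
    rw [e, v.map_add_eq_of_lt_left (by rw [h1]; exact h3), h1]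
  have hl := val_p_lt_lam hp hp2 hζ hvp
  have hl1 := val_lam_lt_one hp hζ hvp
  have hp0 : 0 < v (p : K) := by
    rw [← val_lam_pow hp hζ]; exact pow_pos (val_lam_pos hp hζ) _
  have hr1 : v (uf α T - 1) < 1 := by
    rw [val_uf_sub_one h2 ha hb' hαv hT]; exact hT.zc_lt_one hW
  rcases lt_trichotomy (v (uf α T - 1)) (v (ζ - 1)) with hlt | heq | hgt
  · exfalso
    have h5 := val_pow_sub_one_of_close hp hζ hlt
    rw [h4] at h5
    have : v (p : K) * v (uf α T - 1) < v (p : K) * 1 := (mul_lt_mul_iff_right₀ hp0).mpr hr1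
    rw [← h5, mul_one] at this
    exact lt_irrefl _ this
  · exfalso
    have h5 := val_pow_sub_one_le_of_eq hp hζ heq.le
    rw [h4] at h5
    have e2 : v (ζ - 1) ^ p = v (p : K) * v (ζ - 1) := by
      rw [← val_lam_pow hp hζ, ← pow_succ, Nat.sub_add_cancel hp.one_le]
    rw [e2] at h5
    have : v (p : K) * v (ζ - 1) < v (p : K) * 1 := (mul_lt_mul_iff_right₀ hp0).mpr hl1
    rw [mul_one] at this
    exact absurd h5 (not_le.mpr this)
  · rw [← val_pow_sub_one_of_far hp hζ hgt, h4]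

/-- **split case**: if `z(p • T)` is divisible by `p²` then `u(T)` is close to a root of unity. -/
theorem exists_close_of_val_le {T : (Wab a b).toAffine.Point} (hT : Kernel.InE1 v T)
    (hR : v (zc (p • T)) ≤ v (p : K) ^ 2) : ∃ j < p, v (uf α T - ζ ^ j) < v (ζ - 1) := by
  have ha : v a ≤ 1 := (val_a h2 hα hαv).le
  obtain ⟨hb1, hb2, hb3⟩ := val_b_lt hp hp2 hζ hvp hb
  have hb' : v b ≤ 1 := (hb3.trans hvp).le
  have hW := integralCoeffs_Wab (v := v) ha hb'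
  have hRE : Kernel.InE1 v (p • T) :=
    (nsmul_estimate hW (hT.zc_lt_one hW) hT le_rfl p).1
  obtain ⟨ε, hε, e⟩ := pow_sub_one_eq h2 hα hαv hp hp2 hζ hvp hb hT
  apply exists_close_of_pow hp hζ
  rw [e]
  have hp2lt : v (p : K) ^ 2 < v (ζ - 1) ^ p := by
    have hp0 : 0 < v (p : K) := by
      rw [← val_lam_pow hp hζ]; exact pow_pos (val_lam_pos hp hζ) _
    have e2 : v (ζ - 1) ^ p = v (p : K) * v (ζ - 1) := by
      rw [← val_lam_pow hp hζ, ← pow_succ, Nat.sub_add_cancel hp.one_le]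
    rw [e2, sq]
    exact (mul_lt_mul_iff_right₀ hp0).mpr (val_p_lt_lam hp hp2 hζ hvp)
  refine lt_of_le_of_lt (v.map_add_le ?_ ?_) hp2lt
  · rw [val_uf_sub_one h2 ha hb' hαv hRE]; exact hR
  · rw [map_mul, val_uf ha hb' hαv.le hRE, one_mul]
    exact hε.trans hb

/-- translation by a point with `|u - 1| = |lam|` moves `u` by exactly `|lam|`. -/
theorem val_uf_add_sub {T L : (Wab a b).toAffine.Point} (hT : Kernel.InE1 v T)
    (hL : Kernel.InE1 v L) (hL1 : v (uf α L - 1) = v (ζ - 1)) :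
    v (uf α (T + L) - uf α T) = v (ζ - 1) := by
  have ha : v a ≤ 1 := (val_a h2 hα hαv).le
  obtain ⟨hb1, hb2, hb3⟩ := val_b_lt hp hp2 hζ hvp hb
  have hb' : v b ≤ 1 := (hb3.trans hvp).le
  have hW := integralCoeffs_Wab (v := v) ha hb'
  have hr₁ := hT.zc_lt_one hW
  have hr₂ := hL.zc_lt_one hW
  obtain ⟨ε, hε, e⟩ := uf_add ha hb' hα hαv.le (max_lt hr₁ hr₂) hT hL (le_max_left _ _)
    (le_max_right _ _)
  have hε' : v ε < v (ζ - 1) := by
    refine lt_of_le_of_lt hε (lt_of_le_of_lt ?_ hb2)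
    calc v b * max (v (zc T)) (v (zc L)) ^ 4 ≤ v b * 1 :=
          mul_le_mul' le_rfl (pow_le_one₀ zero_le (max_lt hr₁ hr₂).le)
      _ = v b := mul_one _
  have hTL : Kernel.InE1 v (T + L) :=
    (add_estimate hW (max_lt hr₁ hr₂) hT hL (le_max_left _ _) (le_max_right _ _)).1
  have hu := val_uf (α := α) ha hb' hαv.le hTL
  have hT1 := val_uf (α := α) ha hb' hαv.le hT
  have e2 : uf α (T + L) - uf α T = uf α T * (uf α L - 1) - uf α (T + L) * ε := by
    linear_combination (-1 : K) * e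
  rw [e2, v.map_sub_eq_of_lt_left, map_mul, hT1, one_mul, hL1]
  rw [map_mul, map_mul, hu, hT1, one_mul, one_mul, hL1]
  exact hε'

/-- the split criterion. -/
theorem dvd_of_close {T L : (Wab a b).toAffine.Point} (hT : Kernel.InE1 v T)
    (hL : Kernel.InE1 v L) {j k : ℕ} (hj : v (uf α T - ζ ^ j) < v (ζ - 1))
    (hk : v (uf α L - ζ ^ k) < v (ζ - 1)) (hjk : v (uf α (T + L) - ζ ^ j) < v (ζ - 1)) :
    p ∣ k := by
  have h1 := close_add h2 hα hαv hp hp2 hζ hvp hb hT hL hj hk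
  have h3 := close_unique hp hζ h1 hjk
  have h4 : j + k ≡ j + 0 [MOD p] := by simpa using h3
  exact (Nat.modEq_zero_iff_dvd).mp (Nat.ModEq.add_left_cancel' j h4)

end Fermat.Agent.MP.PEU.Break4
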