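/-
Programme MP, chapter PEU (helper4), file Comp4: **the component exponent of a `p`-torsion point**
on the model `Wab a b` (`v b < 1`), from S05's component map `cval`.

`HasExp v α p P ε` : `cval P ^ p = (v b) ^ (2 e)` with `e ≡ ε mod p`.

* `cval_range`, `inE0_of_cval_eq_one`;
* `hasExp_of_torsion`, `HasExp.add`, `HasExp.neg`, `HasExp.nsmul`, `HasExp.sub`;
* `HasExp.inE0` : exponent `0` ⟹ `P ∈ E₀`;
* `exists_nsmul_sub_inE0` : `X, Y` `p`-torsion, `Y ∉ E₀` ⟹ `∃ j, X - j • Y ∈ E₀`.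
-/
import Mathlib
import Fermat.Agent.S05.Components

set_option autoImplicit false
set_option linter.unusedSectionVars false
set_option linter.style.longLine false

namespace Fermat.Agent.MP.PEU.Comp4

open WeierstrassCurve WeierstrassCurve.Affine Fermat.Agent.S05

variable {K : Type*} [Field K] [DecidableEq K] {Γ₀ : Type*} [LinearOrderedCommGroupWithZero Γ₀]
  {v : Valuation K Γ₀} {a b α : K}

theorem vb_pos (hb0 : b ≠ 0) : 0 < v b := by rw [Valuation.pos_iff]; exact hb0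

theorem vb_sq_lt (hb : v b < 1) (hb0 : b ≠ 0) : v b ^ 2 < v b := by
  rw [sq]
  calc v b * v b < v b * 1 := (mul_lt_mul_iff_right₀ (vb_pos hb0)).mpr hb
    _ = v b := mul_one _

/-- `(v b)² < cval P ≤ 1`. -/
theorem cval_range (hb : v b < 1) (hb0 : b ≠ 0) (P : (Wab a b).toAffine.Point) :
    v b ^ 2 < cval v α P ∧ cval v α P ≤ 1 := by
  have h0 := vb_pos (v := v) hb0
  have hsq := vb_sq_lt (v := v) hb hb0
  rcases P with _ | ⟨x, y, h⟩
  · exact ⟨lt_trans hsq hb, le_rfl⟩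
  · simp only [cval]
    split_ifs with h1 h2 h3
    · exact ⟨lt_trans hsq hb, le_rfl⟩
    · exact ⟨hsq, hb.le⟩
    · push Not at h1 h2
      exact ⟨lt_trans hsq h2, h1.le⟩
    · push Not at h1 h2
      have hx0 : 0 < v x := lt_trans h0 h2
      constructor
      · rw [lt_div_iff₀ hx0]
        calc v b ^ 2 * v x < v b ^ 2 * 1 :=
              (mul_lt_mul_iff_right₀ (pow_pos h0 2)).mpr h1
          _ = v b ^ 2 := mul_one _
      · rw [div_le_one₀ hx0]
        exact (lt_trans hsq h2).le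

/-- `cval P = 1 ⟹ P ∈ E₀`. -/
theorem inE0_of_cval_eq_one (hb : v b < 1) (hb0 : b ≠ 0) {P : (Wab a b).toAffine.Point}
    (hP : cval v α P = 1) : InE0 v P := by
  have h0 := vb_pos (v := v) hb0
  have hsq := vb_sq_lt (v := v) hb hb0
  rcases P with _ | ⟨x, y, h⟩
  · trivial
  · show 1 ≤ v x
    by_contra h1
    simp only [cval, if_neg h1] at hP
    push Not at h1
    split_ifs at hP with h2 h3
    · rw [hP] at hb; exact lt_irrefl _ hb
    · rw [hP] at h1; exact lt_irrefl _ h1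
    · push Not at h2
      have hx0 : 0 < v x := lt_trans h0 h2
      rw [div_eq_one_iff_eq hx0.ne'] at hP
      have := lt_trans hsq h2
      rw [hP] at this
      exact lt_irrefl _ this

/-- the component exponent modulo `p`. -/
def HasExp (v : Valuation K Γ₀) (α : K) (p : ℕ) (P : (Wab a b).toAffine.Point) (ε : ZMod p) :
    Prop :=
  ∃ e : ℤ, cval v α P ^ p = v b ^ (2 * e) ∧ (e : ZMod p) = ε

section

variable (h2 : v (2 : K) = 1) (hb : v b < 1) (hb0 : b ≠ 0) (hα : α ^ 2 = a) (hαv : v α = 1)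
  {p : ℕ}
include h2 hb hb0 hα hαv

theorem hasExp_of_torsion {P : (Wab a b).toAffine.Point} (hP : p • P = 0) :
    ∃ ε : ZMod p, HasExp v α p P ε := by
  have ht : v b ≠ 0 := (vb_pos hb0).ne'
  obtain ⟨k, hk⟩ := cval_nsmul h2 hb hb0 hα hαv P p
  rw [hP, cval_zero] at hk
  refine ⟨((-k : ℤ) : ZMod p), -k, ?_, rfl⟩
  rw [mul_neg, zpow_neg]
  exact eq_inv_of_mul_eq_one_left hk.symm

theorem HasExp.add {P Q : (Wab a b).toAffine.Point} {ε ε' : ZMod p}
    (hP : HasExp v α p P ε) (hQ : HasExp v α p Q ε') : HasExp v α p (P + Q) (ε + ε') := by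
  have ht : v b ≠ 0 := (vb_pos hb0).ne'
  obtain ⟨e, he, rfl⟩ := hP
  obtain ⟨e', he', rfl⟩ := hQ
  obtain ⟨k, hk⟩ := cval_add h2 hb hb0 hα hαv P Q
  refine ⟨e + e' + p * k, ?_, by push_cast; simp⟩
  rw [hk, mul_pow, mul_pow, he, he', ← zpow_natCast (v b ^ (2 * k)) p, ← zpow_mul,
    ← zpow_add₀ ht, ← zpow_add₀ ht]
  congr 1
  ring

theorem HasExp.zero : HasExp v α p (0 : (Wab a b).toAffine.Point) 0 :=
  ⟨0, by simp [cval_zero], by simp⟩

/-- uniqueness of the exponent for the zero point (`cval = 1`): the exponent of a point of `E₀`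
is `0`. -/
theorem HasExp.eq_zero_of_cval {P : (Wab a b).toAffine.Point} {ε : ZMod p}
    (hP : HasExp v α p P ε) (h1 : cval v α P = 1) : ε = 0 := by
  obtain ⟨e, he, rfl⟩ := hP
  rw [h1, one_pow] at he
  have h0 := vb_pos (v := v) hb0
  have : e = 0 := by
    by_contra hne
    rcases lt_or_gt_of_ne hne with hlt | hgt
    · have : 1 < v b ^ (2 * e) := by
        have h3 : 2 * e < 0 := by omega
        exact one_lt_zpow_of_neg₀ h0 hb h3
      rw [← he] at this; exact lt_irrefl _ this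
    · have : v b ^ (2 * e) < 1 := by
        have h3 : 0 < 2 * e := by omega
        exact zpow_lt_one₀ h0 hb h3
      rw [← he] at this; exact lt_irrefl _ this
  rw [this]; simp

theorem HasExp.neg {P : (Wab a b).toAffine.Point} {ε : ZMod p}
    (hP : HasExp v α p P ε) : HasExp v α p (-P) (-ε) := by
  have ht : v b ≠ 0 := (vb_pos hb0).ne'
  obtain ⟨e, he, rfl⟩ := hP
  obtain ⟨k, hk⟩ := cval_add h2 hb hb0 hα hαv P (-P)
  rw [add_neg_cancel, cval_zero] at hk
  -- `cval (-P) = (cval P)⁻¹ * (v b) ^ (-2k)`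
  have hcP : cval v α P ≠ 0 := by
    intro h0
    rw [h0, zero_mul, zero_mul] at hk
    exact one_ne_zero hk
  refine ⟨-e - p * k, ?_, by push_cast; simp⟩
  have h3 : cval v α (-P) = (cval v α P)⁻¹ * (v b ^ (2 * k))⁻¹ := by
    have h4 : cval v α (-P) * (cval v α P * v b ^ (2 * k)) = 1 := by
      rw [← mul_assoc, mul_comm (cval v α (-P))]; exact hk.symm
    rw [eq_inv_of_mul_eq_one_left h4, mul_inv]
  rw [h3, mul_pow, inv_pow, he, inv_pow, ← zpow_natCast (v b ^ (2 * k)) p, ← zpow_mul,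
    ← zpow_neg, ← zpow_neg, ← zpow_add₀ ht]
  congr 1
  ring

theorem HasExp.nsmul {P : (Wab a b).toAffine.Point} {ε : ZMod p}
    (hP : HasExp v α p P ε) (j : ℕ) : HasExp v α p (j • P) (j * ε) := by
  induction j with
  | zero =>
    rw [zero_smul]
    have := HasExp.zero (p := p) h2 hb hb0 hα hαv
    simpa using this
  | succ j ih =>
    rw [succ_nsmul]
    have := HasExp.add h2 hb hb0 hα hαv ih hP
    have e : ((j + 1 : ℕ) : ZMod p) * ε = (j : ZMod p) * ε + ε := by push_cast; ring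
    rw [e]; exact this

/-- exponent `0` ⟹ `P ∈ E₀`. -/
theorem HasExp.inE0 (hp0 : p ≠ 0) {P : (Wab a b).toAffine.Point} (hP : HasExp v α p P 0) :
    InE0 v P := by
  have h0 := vb_pos (v := v) hb0
  have ht : v b ≠ 0 := h0.ne'
  obtain ⟨e, he, he0⟩ := hP
  rw [ZMod.intCast_zmod_eq_zero_iff_dvd] at he0
  obtain ⟨m, rfl⟩ := he0
  -- `cval P = (v b) ^ (2 m)`
  have h1 : cval v α P = v b ^ (2 * m) := by
    have e1 : cval v α P ^ p = (v b ^ (2 * m)) ^ p := by
      rw [he, ← zpow_natCast (v b ^ (2 * m)) p, ← zpow_mul]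
      congr 1; ring
    exact (pow_left_inj₀ zero_le zero_le hp0).mp e1
  obtain ⟨hr1, hr2⟩ := cval_range (α := α) hb hb0 P
  rw [h1] at hr1 hr2
  have hm : m = 0 := by
    by_contra hne
    rcases lt_or_gt_of_ne hne with hlt | hgt
    · have : 1 < v b ^ (2 * m) := one_lt_zpow_of_neg₀ h0 hb (by omega)
      exact absurd hr2 (not_le.mpr this)
    · have h3 : v b ^ (2 * m) ≤ v b ^ (2 : ℤ) := by
        apply zpow_le_zpow_right_of_le_one₀ h0 hb.le
        omega
      rw [zpow_ofNat] at h3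
      exact absurd hr1 (not_lt.mpr h3)
  rw [hm, mul_zero, zpow_zero] at h1
  exact inE0_of_cval_eq_one hb hb0 h1

/-- **every `p`-torsion point is a multiple of `Y` modulo `E₀`** when `Y ∉ E₀`. -/
theorem exists_nsmul_sub_inE0 (hp : p.Prime) {X Y : (Wab a b).toAffine.Point}
    (hX : p • X = 0) (hY : p • Y = 0) (hY0 : ¬ InE0 v Y) :
    ∃ j : ℕ, j < p ∧ InE0 v (X - j • Y) := by
  have : Fact p.Prime := ⟨hp⟩
  obtain ⟨n, hn⟩ := hasExp_of_torsion h2 hb hb0 hα hαv hX
  obtain ⟨m, hm⟩ := hasExp_of_torsion h2 hb hb0 hα hαv hY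
  have hm0 : m ≠ 0 := by
    rintro rfl
    exact hY0 (HasExp.inE0 h2 hb hb0 hα hαv hp.ne_zero hm)
  refine ⟨(n / m).val, ZMod.val_lt _, ?_⟩
  apply HasExp.inE0 h2 hb hb0 hα hαv hp.ne_zero
  have h1 := HasExp.neg h2 hb hb0 hα hαv
    (HasExp.nsmul h2 hb hb0 hα hαv hm (n / m).val)
  have h3 := HasExp.add h2 hb hb0 hα hαv hn h1
  rw [← sub_eq_add_neg] at h3
  have e : n + -(((n / m).val : ZMod p) * m) = 0 := by
    rw [ZMod.natCast_zmod_val, div_mul_cancel₀ _ hm0]
    ring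
  rw [e] at h3
  exact h3

end

end Fermat.Agent.MP.PEU.Comp4
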