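/-
Programme MP, chapter PEU (helper4), file Val4: **the `ℝ≥0`-valued valuation `vN p` of `ℚ̄`**
attached to `padicPlace p` (`(vN p x : ℝ) = nrm p x`), with the facts consumed by the S05 machinery.

* `vN p : Valuation Qb ℝ≥0`, `vN_coe`, `vN_le_one_iff`, `vN_lt_one_iff`, `vN_le_iff`, `vN_lt_iff`,
  `vN_eq_iff`;
* `vN_apply` (isometry of the decomposition group), `vN_sub_lt_one` (inertia moves integral elements
  by `< 1`), `vN_sub_lt` (… elements of the norm of a fixed element by less than their norm);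
* `liesOver_vN : FreyArith.LiesOver (vN p) p`, `vN_two`, `vN_p`, `vN_p_lt_one`.
-/
import Mathlib
import Fermat.Agent.FF.BASE.Place2
import Fermat.Agent.S05.Inertia
import Fermat.Agent.S05.FreyArith

set_option autoImplicit false
set_option linter.unusedSectionVars false
set_option linter.style.longLine false

namespace Fermat.Agent.MP.PEU.Val4

open Fermat.Agent.FF.BASE.Place2 Fermat.Agent.TW.FLAT.FlatModule6 Fermat.Agent.S05
open scoped NNReal

noncomputable section

variable (p : ℕ) [Fact p.Prime]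

/-- the `ℝ≥0`-valued valuation of `ℚ̄` attached to `padicPlace p`. -/
def vN : Valuation Qb ℝ≥0 :=
  (Valued.v : Valuation (PadicAlgCl p) ℝ≥0).comap (padicEmbedding p).toRingHom

variable {p}

theorem vN_def (x : Qb) : vN p x = ‖padicEmbedding p x‖₊ := rfl

theorem vN_coe (x : Qb) : ((vN p x : ℝ≥0) : ℝ) = nrm p x := rfl

theorem vN_le_iff {x y : Qb} : vN p x ≤ vN p y ↔ nrm p x ≤ nrm p y := by
  rw [← NNReal.coe_le_coe, vN_coe, vN_coe]

theorem vN_lt_iff {x y : Qb} : vN p x < vN p y ↔ nrm p x < nrm p y := by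
  rw [← NNReal.coe_lt_coe, vN_coe, vN_coe]

theorem vN_eq_iff {x y : Qb} : vN p x = vN p y ↔ nrm p x = nrm p y := by
  rw [← NNReal.coe_inj, vN_coe, vN_coe]

theorem vN_le_one_iff {x : Qb} : vN p x ≤ 1 ↔ x ∈ padicPlace p := Iff.rfl

theorem vN_lt_one_iff {x : Qb} : vN p x < 1 ↔ x ∈ (padicPlace p).nonunits := by
  rw [Fermat.Agent.FF.BASE.Place2.mem_nonunits_iff, ← NNReal.coe_lt_coe, vN_coe, NNReal.coe_one]

theorem vN_apply {σ : GQ} (hσ : σ ∈ Dv p) (x : Qb) : vN p (σ x) = vN p x := by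
  rw [← NNReal.coe_inj, vN_coe, vN_coe]
  exact nrm_smul_of_mem_Dv hσ x

theorem vN_apply_of_mem_Iv {σ : GQ} (hσ : σ ∈ Iv p) (x : Qb) : vN p (σ x) = vN p x :=
  vN_apply (Iv_le_Dv hσ) x

/-- inertia moves integral elements by less than `1`. -/
theorem vN_sub_lt_one {σ : GQ} (hσ : σ ∈ Iv p) {x : Qb} (hx : vN p x ≤ 1) :
    vN p (σ x - x) < 1 := by
  rw [vN_lt_one_iff]
  exact Inertia.apply_sub_mem_nonunits hσ (vN_le_one_iff.mp hx)

/-- inertia moves an element of the norm of a fixed element by less than its norm. -/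
theorem vN_sub_lt {σ : GQ} (hσ : σ ∈ Iv p) {x h : Qb} (hfix : σ h = h) (h0 : h ≠ 0)
    (hv : vN p x = vN p h) : vN p (σ x - x) < vN p x := by
  have hpos : 0 < vN p h := by rw [Valuation.pos_iff]; exact h0
  have h1 : vN p (x / h) ≤ 1 := by rw [map_div₀, hv, div_self hpos.ne']
  have h2 := vN_sub_lt_one hσ h1
  have e : σ (x / h) - x / h = (σ x - x) / h := by
    rw [map_div₀, hfix]; ring
  rw [e, map_div₀, div_lt_one₀ hpos] at h2
  rw [hv]; exact h2

theorem liesOver_vN : FreyArith.LiesOver (vN p) p := by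
  have hp : p.Prime := Fact.out
  refine ⟨fun n => ?_, fun n => ?_⟩
  · rw [vN_le_one_iff]; exact intCast_mem _ n
  · rw [vN_lt_one_iff, ValuationSubring.mem_nonunits_iff (A := padicPlace p)]
    exact Inertia.valuation_intCast_lt_one_iff hp (liesOverPrime p) n

theorem vN_two (hp2 : p ≠ 2) : vN p (2 : Qb) = 1 :=
  (liesOver_vN (p := p)).two Fact.out hp2

theorem vN_p : vN p ((p : ℕ) : Qb) = ((p : ℝ≥0))⁻¹ := by
  rw [← NNReal.coe_inj, vN_coe, nrm_natCast_self]
  push_cast
  rfl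

theorem vN_p_lt_one : vN p ((p : ℕ) : Qb) < 1 := by
  rw [vN_lt_one_iff]
  exact liesOverPrime p

theorem vN_intCast_le_one (n : ℤ) : vN p (n : Qb) ≤ 1 := (liesOver_vN (p := p)).le_one n

end

end Fermat.Agent.MP.PEU.Val4
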