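/-
Programme MP, chapter PEU (helper4), file Model4: **the model `Wab a b` of the Frey curve at a prime
`p ∣ abc`**, over `ℚ̄` with the valuation `vN p`.

* `MData P` : the data `(t, a, b, h, α)` of a model: `freyEquiv P ht ha hb : E(ℚ̄) ≃+ Wab a b (ℚ̄)`,
  `α² = a`, `|a| = 1`, `|b| = |h|^p`, `|h| ≤ |p|`, `t`, `h` rational (fixed by `G_ℚ`);
* derived facts: `a`, `b` fixed by `G_ℚ`, `|α| = 1`, `α` fixed by inertia, `|b| ≤ |p|²`, `|b| < 1`;
* `exists_mdata` : a model exists when `p ∣ abc`;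
* Galois equivariance of `φ = freyEquiv` in coordinates (`phi_smul_zero`, `phi_smul_some`).
-/
import Mathlib
import Fermat.Agent.MP.PEU.Val4
import Fermat.Agent.S05.FreyTransport
import Fermat.Agent.S05.FreyArith

set_option autoImplicit false
set_option linter.unusedSectionVars false
set_option linter.style.longLine false

namespace Fermat.Agent.MP.PEU.Model4

open WeierstrassCurve WeierstrassCurve.Affine WeierstrassCurve.Affine.Point
open Fermat.Agent.FF.BASE.Place2 Fermat.Agent.TW.FLAT.FlatModule6 Fermat.Agent.S05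
open Fermat.Agent.S05.FreyTransport Fermat.Agent.MP.PEU.Val4
open scoped NNReal

noncomputable section

/-- the data of a model `Wab a b` of the Frey curve with multiplicative reduction at `p`. -/
structure MData (P : FreyPackage) [Fact P.p.Prime] where
  t : Qb
  a : Qb
  b : Qb
  h : Qb
  α : Qb
  ht : t * (t - cA P) * (t + cB P) = 0
  ha : a = 3 * t + cB P - cA P
  hb : b = 3 * t ^ 2 + 2 * (cB P - cA P) * t - cA P * cB P
  hα : α ^ 2 = a
  t_fix : ∀ σ : GQ, σ t = t
  h_fix : ∀ σ : GQ, σ h = h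
  vt : vN P.p t ≤ 1
  va : vN P.p a = 1
  vbh : vN P.p b = vN P.p h ^ P.p
  vh : vN P.p h ≤ vN P.p ((P.p : ℕ) : Qb)
  b0 : b ≠ 0

namespace MData

variable {P : FreyPackage} [Fact P.p.Prime] (D : MData P)

/-- the isomorphism with the model curve. -/
def φ : (P.freyCurve⁄Qb).Point ≃+ (Wab D.a D.b).toAffine.Point :=
  freyEquiv P D.ht D.ha D.hb

theorem cA_fix (σ : GQ) : σ (cA P : Qb) = cA P := by
  rw [cA, map_pow, map_intCast]

theorem cB_fix (σ : GQ) : σ (cB P : Qb) = cB P := by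
  rw [cB, map_pow, map_intCast]

theorem a_fix (σ : GQ) : σ D.a = D.a := by
  rw [D.ha]
  simp only [map_add, map_sub, map_mul, map_ofNat, D.t_fix σ, cA_fix, cB_fix]

theorem b_fix (σ : GQ) : σ D.b = D.b := by
  rw [D.hb]
  simp only [map_add, map_sub, map_mul, map_pow, map_ofNat, D.t_fix σ, cA_fix, cB_fix]

theorem vα : vN P.p D.α = 1 := by
  have h1 : vN P.p D.α ^ 2 = 1 := by rw [← map_pow, D.hα, D.va]
  exact (pow_eq_one_iff_of_nonneg zero_le (by norm_num)).mp h1

include D in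
theorem p_ne_two : P.p ≠ 2 := by have := P.hp5; omega

include D in
theorem v2 : vN P.p (2 : Qb) = 1 := vN_two D.p_ne_two

/-- `α` is fixed by inertia. -/
theorem α_fix {σ : GQ} (hσ : σ ∈ Iv P.p) : σ D.α = D.α := by
  have h1 : σ D.α ^ 2 = D.α ^ 2 := by rw [← map_pow, D.hα, D.a_fix]
  have h2 : (σ D.α - D.α) * (σ D.α + D.α) = 0 := by linear_combination h1
  rcases mul_eq_zero.mp h2 with h3 | h3
  · exact sub_eq_zero.mp h3
  · exfalso
    have h4 : σ D.α - D.α = -(2 * D.α) := by linear_combination h3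
    have h5 := vN_sub_lt_one hσ D.vα.le
    rw [h4, Valuation.map_neg, map_mul, D.v2, D.vα, one_mul] at h5
    exact lt_irrefl _ h5

theorem h0 : D.h ≠ 0 := by
  intro h
  have := D.vbh
  rw [h, _root_.map_zero, zero_pow P.hp0, map_eq_zero] at this
  exact D.b0 this

theorem vh_lt_one : vN P.p D.h < 1 := lt_of_le_of_lt D.vh vN_p_lt_one

theorem vb_le : vN P.p D.b ≤ vN P.p ((P.p : ℕ) : Qb) ^ 2 := by
  rw [D.vbh]
  have h1 : vN P.p D.h ^ P.p ≤ vN P.p ((P.p : ℕ) : Qb) ^ P.p := pow_le_pow_left' D.vh _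
  refine h1.trans (pow_le_pow_right_of_le_one' vN_p_lt_one.le ?_)
  have := P.hp5; omega

theorem vb_lt_one : vN P.p D.b < 1 := by
  refine lt_of_le_of_lt D.vb_le ?_
  exact pow_lt_one₀ zero_le vN_p_lt_one (by norm_num)

/-! ### Galois equivariance of `φ` in coordinates -/

theorem phi_zero : D.φ 0 = 0 := _root_.map_zero _

theorem phi_smul_zero (σ : GQ) {Q : (P.freyCurve⁄Qb).Point} (hQ : D.φ Q = 0) :
    D.φ (σ • Q) = 0 := by
  have : Q = 0 := D.φ.injective (by rw [hQ, _root_.map_zero])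
  subst this
  have h0 : σ • (0 : (P.freyCurve⁄Qb).Point) = 0 := rfl
  rw [h0, _root_.map_zero]

theorem phi_smul_some (σ : GQ) {Q : (P.freyCurve⁄Qb).Point} {x y : Qb}
    {h : (Wab D.a D.b).toAffine.Nonsingular x y} (hQ : D.φ Q = Point.some x y h) :
    ∃ h' : (Wab D.a D.b).toAffine.Nonsingular (σ x) (σ y),
      D.φ (σ • Q) = Point.some (σ x) (σ y) h' := by
  rcases Q with _ | ⟨x₀, y₀, h₀⟩
  · exfalso
    have : D.φ (Point.zero : (P.freyCurve⁄Qb).Point) = 0 := _root_.map_zero _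
    rw [this] at hQ
    exact Point.some_ne_zero h hQ.symm
  · have h₀' : (P.freyCurve⁄Qb).Nonsingular (σ x₀) (σ y₀) :=
      (Affine.baseChange_nonsingular (W := P.freyCurve) (f := σ.toAlgHom)
        σ.toAlgHom.injective x₀ y₀).mpr h₀
    have hs : σ • (Point.some x₀ y₀ h₀ : (P.freyCurve⁄Qb).Point) =
        Point.some (σ x₀) (σ y₀) h₀' := rfl
    obtain ⟨h1, e1⟩ := freyEquiv_some P D.ht D.ha D.hb h₀
    obtain ⟨h2, e2⟩ := freyEquiv_some P D.ht D.ha D.hb h₀'
    have e1' : D.φ (Point.some x₀ y₀ h₀) = Point.some _ _ h1 := e1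
    rw [e1', Point.some.injEq] at hQ
    obtain ⟨rfl, rfl⟩ := hQ
    rw [hs]
    have hX : 4 * σ x₀ - D.t = σ (4 * x₀ - D.t) := by
      rw [map_sub, map_mul, D.t_fix σ, map_ofNat]
    have hY : 8 * σ y₀ + 4 * σ x₀ = σ (8 * y₀ + 4 * x₀) := by
      rw [map_add, map_mul, map_mul, map_ofNat, map_ofNat]
    have key : ∀ (X' Y' : Qb) (_ : 4 * σ x₀ - D.t = X') (_ : 8 * σ y₀ + 4 * σ x₀ = Y')
        (h' : (Wab D.a D.b).toAffine.Nonsingular (4 * σ x₀ - D.t) (8 * σ y₀ + 4 * σ x₀)),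
        ∃ h'' : (Wab D.a D.b).toAffine.Nonsingular X' Y',
          (Point.some _ _ h' : (Wab D.a D.b).toAffine.Point) = Point.some X' Y' h'' := by
      rintro X' Y' rfl rfl h'
      exact ⟨h', rfl⟩
    obtain ⟨h3, e3⟩ := key _ _ hX hY h2
    exact ⟨h3, e2.trans e3⟩

end MData

/-! ### Existence of a model -/

section Exists

variable (P : FreyPackage) [Fact P.p.Prime]

theorem v_le_p_of_dvd {n : ℤ} (hn : (P.p : ℤ) ∣ n) :
    vN P.p (n : Qb) ≤ vN P.p ((P.p : ℕ) : Qb) := by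
  obtain ⟨m, rfl⟩ := hn
  push_cast
  rw [map_mul]
  calc vN P.p ((P.p : ℕ) : Qb) * vN P.p (m : Qb) ≤ vN P.p ((P.p : ℕ) : Qb) * 1 :=
        mul_le_mul' le_rfl (vN_intCast_le_one m)
    _ = _ := mul_one _

theorem exists_mdata (hp : (P.p : ℤ) ∣ P.a * P.b * P.c) : Nonempty (MData P) := by
  have hq : P.p.Prime := P.pp
  have hv := liesOver_vN (p := P.p)
  have hcA : (cA P : Qb) = (P.a : Qb) ^ P.p := rfl
  have hcB : (cB P : Qb) = (P.b : Qb) ^ P.p := rfl
  have hab_or : (P.p : ℤ) ∣ P.a * P.b ∨ (P.p : ℤ) ∣ P.c :=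
    (FreyArith.prime_int hq).dvd_or_dvd hp
  rcases hab_or with hab | hc
  · -- `p ∣ ab`
    obtain ⟨g1, g2, g3⟩ := FreyArith.mult_ab_val P hv hq hab
    obtain ⟨α, hα⟩ := IsAlgClosed.exists_pow_nat_eq
      ((P.b : Qb) ^ P.p - (P.a : Qb) ^ P.p) (n := 2) (by norm_num)
    refine ⟨{
      t := 0
      a := (P.b : Qb) ^ P.p - (P.a : Qb) ^ P.p
      b := -((P.a : Qb) ^ P.p * (P.b : Qb) ^ P.p)
      h := (P.a : Qb) * (P.b : Qb)
      α := α
      ht := by ring
      ha := by rw [hcA, hcB]; ring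
      hb := by rw [hcA, hcB]; ring
      hα := hα
      t_fix := fun σ => _root_.map_zero σ
      h_fix := fun σ => by rw [map_mul, map_intCast, map_intCast]
      vt := by simp
      va := g1
      vbh := g2
      vh := by
        have := v_le_p_of_dvd P hab
        push_cast at this
        exact this
      b0 := by
        rw [← mul_pow]
        exact neg_ne_zero.mpr (pow_ne_zero _ (FreyArith.ab_ne_zero P)) }⟩
  · -- `p ∣ c`
    have hcc : (P.c : Qb) ^ P.p = (P.a : Qb) ^ P.p + (P.b : Qb) ^ P.p :=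
      FreyArith.c_pow_eq_cast P
    obtain ⟨g1, g2, g3⟩ := FreyArith.mult_c_val P hv hq hc
    obtain ⟨α, hα⟩ := IsAlgClosed.exists_pow_nat_eq
      ((P.a : Qb) ^ P.p + (P.c : Qb) ^ P.p) (n := 2) (by norm_num)
    refine ⟨{
      t := (P.a : Qb) ^ P.p
      a := (P.a : Qb) ^ P.p + (P.c : Qb) ^ P.p
      b := (P.a : Qb) ^ P.p * (P.c : Qb) ^ P.p
      h := (P.a : Qb) * (P.c : Qb)
      α := α
      ht := by rw [hcA]; ring
      ha := by rw [hcA, hcB, hcc]; ring
      hb := by rw [hcA, hcB, hcc]; ring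
      hα := hα
      t_fix := fun σ => by rw [map_pow, map_intCast]
      h_fix := fun σ => by rw [map_mul, map_intCast, map_intCast]
      vt := by
        have := vN_intCast_le_one (p := P.p) (P.a ^ P.p)
        push_cast at this
        exact this
      va := g1
      vbh := g2
      vh := by
        have := v_le_p_of_dvd P (dvd_mul_of_dvd_right hc P.a)
        push_cast at this
        exact this
      b0 := by
        rw [← mul_pow]
        exact pow_ne_zero _ (FreyArith.ac_ne_zero P) }⟩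

end Exists

end

end Fermat.Agent.MP.PEU.Model4
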