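/-
Programme MP, chapter PEU (helper4), file NoTors4: **`E₀ / E₁` has no `p`-torsion** on the model
`Wab a b` with multiplicative reduction (`v a = 1`, `v b < 1`, residue characteristic `p`).

* `val_units` : for a point with `v x = 1`, `y ± α x` are units;
* `uf_mid_coord` : three collinear points with unit `x`-coordinates: `u₁ u₂ = u₃ (1 + ε)`,
  `v ε ≤ v b` (no case distinction: `v ν = 1` and `v ℓ ≤ 1` follow from Vieta);
* `inE1_of_nsmul_eq_zero` : `P ∈ E₀`, `p • P = 0` ⟹ `P ∈ E₁`.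
-/
import Mathlib
import Fermat.Agent.S05.Components
import Fermat.Agent.MP.PEU.E1Hom4
import Fermat.Agent.MP.PEU.Cyclo4

set_option autoImplicit false
set_option linter.unusedSectionVars false
set_option linter.style.longLine false

namespace Fermat.Agent.MP.PEU.NoTors4

open WeierstrassCurve WeierstrassCurve.Affine Fermat.Agent.S05 Fermat.Agent.S05.Kernel
open Fermat.Agent.MP.PEU.E1Hom4 Fermat.Agent.MP.PEU.Cyclo4 Fermat.Agent.MP.PEU.LineId4

variable {K : Type*} [Field K] [DecidableEq K] {Γ₀ : Type*} [LinearOrderedCommGroupWithZero Γ₀]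
  {v : Valuation K Γ₀} {a b α ζ : K} {p : ℕ}

/-- for a point with unit `x`-coordinate, `y ± α x` are units. -/
theorem val_units (hα : α ^ 2 = a) (hαv : v α ≤ 1) (hb : v b < 1) {x y : K}
    (h : (Wab a b).toAffine.Equation x y) (hx : v x = 1) :
    v (y - α * x) = 1 ∧ v (y + α * x) = 1 := by
  rw [Wab_equation_iff] at h
  have ha : v a ≤ 1 := by rw [← hα, map_pow]; exact pow_le_one₀ zero_le hαv
  have hy2 : v (y ^ 2) ≤ 1 := by
    rw [h]
    refine v.map_add_le (v.map_add_le ?_ ?_) ?_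
    · rw [map_pow, hx, one_pow]
    · rw [map_mul, map_pow, hx, one_pow, mul_one]; exact ha
    · rw [map_mul, hx, mul_one]; exact hb.le
  have hy : v y ≤ 1 := by
    rw [map_pow] at hy2
    exact (pow_le_one_iff_of_nonneg zero_le (by norm_num)).mp hy2
  have hαx : v (α * x) ≤ 1 := by rw [map_mul, hx, mul_one]; exact hαv
  have h1 : v (y - α * x) ≤ 1 := v.map_sub_le hy hαx
  have h2 : v (y + α * x) ≤ 1 := v.map_add_le hy hαx
  have hprod : (y - α * x) * (y + α * x) = x * (x ^ 2 + b) := by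
    subst hα
    linear_combination h
  have h3 : v ((y - α * x) * (y + α * x)) = 1 := by
    rw [hprod, map_mul, hx, one_mul]
    have : v (x ^ 2) = 1 := by rw [map_pow, hx, one_pow]
    rw [v.map_add_eq_of_lt_left (by rw [this]; exact hb), this]
  rw [map_mul] at h3
  constructor
  · refine le_antisymm h1 ?_
    calc (1 : Γ₀) = v (y - α * x) * v (y + α * x) := h3.symm
      _ ≤ v (y - α * x) * 1 := mul_le_mul' le_rfl h2
      _ = v (y - α * x) := mul_one _
  · refine le_antisymm h2 ?_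
    calc (1 : Γ₀) = v (y - α * x) * v (y + α * x) := h3.symm
      _ ≤ 1 * v (y + α * x) := mul_le_mul' h1 le_rfl
      _ = v (y + α * x) := one_mul _

/-- **the approximate homomorphism property on `E₀ ∖ E₁`**, coordinate form. -/
theorem uf_mid_coord (hα : α ^ 2 = a) (hαv : v α ≤ 1) (hb : v b < 1) {x₁ y₁ x₂ y₂ : K}
    (h₁ : (Wab a b).toAffine.Equation x₁ y₁) (h₂ : (Wab a b).toAffine.Equation x₂ y₂)
    (hx₁ : v x₁ = 1) (hx₂ : v x₂ = 1)
    (hxy : ¬(x₁ = x₂ ∧ y₁ = (Wab a b).toAffine.negY x₂ y₂))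
    (hx₃ : v ((Wab a b).toAffine.addX x₁ x₂ ((Wab a b).toAffine.slope x₁ x₂ y₁ y₂)) = 1) :
    ∃ ε : K, v ε ≤ v b ∧
      (y₁ - α * x₁) / (y₁ + α * x₁) * ((y₂ - α * x₂) / (y₂ + α * x₂))
        = ((Wab a b).toAffine.addY x₁ x₂ y₁ ((Wab a b).toAffine.slope x₁ x₂ y₁ y₂)
            - α * (Wab a b).toAffine.addX x₁ x₂ ((Wab a b).toAffine.slope x₁ x₂ y₁ y₂))
          / ((Wab a b).toAffine.addY x₁ x₂ y₁ ((Wab a b).toAffine.slope x₁ x₂ y₁ y₂)
            + α * (Wab a b).toAffine.addX x₁ x₂ ((Wab a b).toAffine.slope x₁ x₂ y₁ y₂))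
          * (1 + ε) := by
  have ha : v a ≤ 1 := by rw [← hα, map_pow]; exact pow_le_one₀ zero_le hαv
  obtain ⟨e₁, -, e₃⟩ := vieta_of_slope h₁ h₂ hxy
  have heq₃ := equation_negAdd h₁ h₂ hxy
  obtain ⟨hid₁, hid₂⟩ := line_identity hα h₁ h₂ hxy
  obtain ⟨hn₁, hd₁⟩ := val_units hα hαv hb h₁ hx₁
  obtain ⟨hn₂, hd₂⟩ := val_units hα hαv hb h₂ hx₂
  obtain ⟨hn₃, hd₃⟩ := val_units hα hαv hb heq₃ hx₃
  simp only [Wab_a₁, Wab_a₂, Wab_a₃, Wab_a₆] at e₁ e₃
  rw [addY, Wab_negY]
  generalize (Wab a b).toAffine.negAddY x₁ x₂ y₁ ((Wab a b).toAffine.slope x₁ x₂ y₁ y₂) = y₃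
    at hid₁ hid₂ hd₃ hn₃ heq₃ ⊢
  generalize (Wab a b).toAffine.addX x₁ x₂ ((Wab a b).toAffine.slope x₁ x₂ y₁ y₂) = x₃
    at hid₁ hid₂ hd₃ hn₃ hx₃ heq₃ e₁ e₃ ⊢
  generalize (Wab a b).toAffine.slope x₁ x₂ y₁ y₂ = ℓ at hid₁ hid₂ e₁ e₃
  generalize y₁ - ℓ * x₁ = ν at hid₁ hid₂ e₃
  have ne_of_one : ∀ {z : K}, v z = 1 → z ≠ 0 := by
    intro z hz h0; rw [h0, map_zero] at hz; exact zero_ne_one hz
  -- `v ν = 1`, `v ℓ ≤ 1`
  have hν : v ν = 1 := by
    have : v (ν ^ 2) = 1 := by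
      have e : ν ^ 2 = x₁ * x₂ * x₃ := by linear_combination -e₃
      rw [e, map_mul, map_mul, hx₁, hx₂, hx₃, one_mul, one_mul]
    rw [map_pow] at this
    exact (pow_eq_one_iff_of_nonneg zero_le (by norm_num)).mp this
  have hℓ : v ℓ ≤ 1 := by
    have : v (ℓ ^ 2) ≤ 1 := by
      have e : ℓ ^ 2 = x₁ + x₂ + x₃ + a := by linear_combination -e₁
      rw [e]
      exact v.map_add_le (v.map_add_le (v.map_add_le hx₁.le hx₂.le) hx₃.le) ha
    rw [map_pow] at this
    exact (pow_le_one_iff_of_nonneg zero_le (by norm_num)).mp this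
  obtain ⟨B, hB⟩ : ∃ B : K, B = ν ^ 3 + b * ν * (ℓ + α) ^ 2 := ⟨_, rfl⟩
  rw [← hB] at hid₂
  have hvB : v B = 1 := by
    rw [← hid₂, map_mul, map_mul, hd₁, hd₂, hd₃, one_mul, one_mul]
  have hB0 : B ≠ 0 := ne_of_one hvB
  refine ⟨-(4 * b * ν * α * ℓ) / B, ?_, ?_⟩
  · rw [map_div₀, hvB, div_one, Valuation.map_neg]
    have h4 : v (4 : K) ≤ 1 := by simpa using vle_natCast (v := v) 4
    have e : 4 * b * ν * α * ℓ = (4 * (ν * (α * ℓ))) * b := by ring
    rw [e]
    refine vle_int_mul (vle_int_mul h4 ?_) le_rfl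
    rw [map_mul, hν, one_mul]
    exact vle_int_mul hαv hℓ
  · have hD₁ := ne_of_one hd₁
    have hD₂ := ne_of_one hd₂
    have hD₃ := ne_of_one hd₃
    have hN₃ := ne_of_one hn₃
    have hD₃' : -y₃ + α * x₃ ≠ 0 := by
      intro h0; apply hN₃; linear_combination -h0
    have h1 : (1 : K) + -(4 * b * ν * α * ℓ) / B = (ν ^ 3 + b * ν * (ℓ - α) ^ 2) / B := by
      rw [eq_div_iff hB0, add_mul, one_mul, div_mul_cancel₀ _ hB0, hB]
      ring
    rw [h1, ← hid₁, ← hid₂]
    field_simp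
    ring

/-- `u(-P) u(P) = 1` for a point with unit `x`-coordinate. -/
theorem uf_neg_mid (hα : α ^ 2 = a) (hαv : v α ≤ 1) (hb : v b < 1) {x y : K}
    (h : (Wab a b).toAffine.Nonsingular x y) (hx : v x = 1) :
    uf α (-Point.some x y h) * uf α (Point.some x y h) = 1 := by
  obtain ⟨hn, hd⟩ := val_units hα hαv hb h.1 hx
  have ne_of_one : ∀ {z : K}, v z = 1 → z ≠ 0 := by
    intro z hz h0; rw [h0, map_zero] at hz; exact zero_ne_one hz
  have hN := ne_of_one hn
  have hD := ne_of_one hd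
  rw [Point.neg_some, uf_some, uf_some, Wab_negY]
  have hn' : -y + α * x ≠ 0 := by
    intro h0; apply hN; linear_combination -h0
  field_simp
  ring

/-- `|u(P) - 1| = 1` for a point with unit `x`-coordinate. -/
theorem val_uf_sub_one_mid (h2 : v (2 : K) = 1) (hα : α ^ 2 = a) (hαv : v α = 1) (hb : v b < 1)
    {x y : K} (h : (Wab a b).toAffine.Nonsingular x y) (hx : v x = 1) :
    v (uf α (Point.some x y h) - 1) = 1 := by
  obtain ⟨hn, hd⟩ := val_units hα hαv.le hb h.1 hx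
  have hD : y + α * x ≠ 0 := by
    intro h0; rw [h0, map_zero] at hd; exact zero_ne_one hd
  have e : uf α (Point.some x y h) - 1 = -(2 * α * x) / (y + α * x) := by
    rw [uf_some]; field_simp; ring
  rw [e, map_div₀, hd, div_one, Valuation.map_neg, map_mul, map_mul, h2, hαv, hx, one_mul, one_mul]

section Main

variable (h2 : v (2 : K) = 1) (hα : α ^ 2 = a) (hαv : v α = 1) (hb : v b < 1) (hb0 : b ≠ 0)
include h2 hα hαv hb hb0

/-- multiples of a point of `E₀`, `p`-torsion, outside `E₁` have unit `x`-coordinate. -/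
theorem nsmul_mid (hp : p.Prime) {P : (Wab a b).toAffine.Point} (hP0 : S05.InE0 v P)
    (hP1 : ¬ Kernel.InE1 v P) (hpP : p • P = 0) {k : ℕ} (hk1 : 1 ≤ k) (hkp : k < p) :
    ∃ (x y : K) (h : (Wab a b).toAffine.Nonsingular x y), k • P = Point.some x y h ∧ v x = 1 := by
  have ha : v a ≤ 1 := by rw [← hα, map_pow, hαv, one_pow]
  have hW := integralCoeffs_Wab (v := v) ha hb.le
  have hk0 : S05.InE0 v (k • P) := by
    clear hk1 hkp
    induction k with
    | zero => rw [zero_smul]; trivial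
    | succ k ih => rw [succ_nsmul]; exact inE0_add hb hb0 ha ih hP0
  have hk1' : ¬ Kernel.InE1 v (k • P) := by
    intro hk
    apply hP1
    have hcop : IsCoprime (k : ℤ) (p : ℤ) := by
      rw [Nat.isCoprime_iff_coprime]
      exact (Nat.Coprime.symm ((Nat.Prime.coprime_iff_not_dvd hp).mpr
        (Nat.not_dvd_of_pos_of_lt hk1 hkp)))
    obtain ⟨m, j, hmj⟩ := hcop
    have e : P = m • (k • P) := by
      have h1 : P = (m * k + j * p : ℤ) • P := by rw [hmj, one_smul]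
      rw [add_smul, mul_smul, mul_smul, natCast_zsmul, natCast_zsmul, hpP, smul_zero,
        add_zero] at h1
      exact h1
    rw [e]
    exact (Kernel.E1 v (Wab a b).toAffine hW).zsmul_mem hk m
  rcases hkP : k • P with _ | ⟨x, y, h⟩
  · exact absurd (Or.inl hkP) hk1'
  · refine ⟨x, y, h, rfl, ?_⟩
    rw [hkP] at hk0 hk1'
    have h1 : 1 ≤ v x := hk0
    have h2' : ¬ 1 < v x := fun hlt => hk1' ((inE1_some v h).mpr hlt)
    exact le_antisymm (not_lt.mp h2') h1

/-- **`E₀ / E₁` has no `p`-torsion.** -/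
theorem inE1_of_nsmul_eq_zero (hp : p.Prime) (hζ : IsPrimitiveRoot ζ p) (hvp : v (p : K) < 1)
    {P : (Wab a b).toAffine.Point} (hP0 : S05.InE0 v P) (hpP : p • P = 0) :
    Kernel.InE1 v P := by
  by_contra hP1
  have ha : v a ≤ 1 := by rw [← hα, map_pow, hαv, one_pow]
  obtain ⟨x, y, hn, hP, hx⟩ := nsmul_mid h2 hα hαv hb hb0 hp hP0 hP1 hpP le_rfl hp.one_lt
  rw [one_smul] at hP
  subst hP
  -- the induction
  have key : ∀ k : ℕ, 1 ≤ k → k < p → ∃ ε : K, v ε ≤ v b ∧
      uf α (Point.some x y hn) ^ k = uf α (k • Point.some x y hn) * (1 + ε) := by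
    intro k hk1
    induction k, hk1 using Nat.le_induction with
    | base => intro _; exact ⟨0, by simp, by simp⟩
    | succ k hk1 ih =>
      intro hkp
      obtain ⟨ε₁, hε₁, e₁⟩ := ih (by omega)
      obtain ⟨x₁, y₁, hn₁, hkP, hx₁⟩ := nsmul_mid h2 hα hαv hb hb0 hp hP0 hP1 hpP hk1
        (show k < p by omega)
      obtain ⟨x₃, y₃, hn₃, hk3, hx₃⟩ := nsmul_mid h2 hα hαv hb hb0 hp hP0 hP1 hpP
        (show 1 ≤ k + 1 by omega) hkp
      have hsum : Point.some x₁ y₁ hn₁ + Point.some x y hn = Point.some x₃ y₃ hn₃ := by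
        rw [← hkP, ← hk3, succ_nsmul]
      have hxy : ¬(x₁ = x ∧ y₁ = (Wab a b).toAffine.negY x y) := by
        intro hxy
        rw [Point.add_of_Y_eq hxy.1 hxy.2] at hsum
        exact Point.some_ne_zero hn₃ hsum.symm
      rw [Point.add_some hxy, Point.some.injEq] at hsum
      have hx₃' : v ((Wab a b).toAffine.addX x₁ x
          ((Wab a b).toAffine.slope x₁ x y₁ y)) = 1 := by rw [hsum.1]; exact hx₃
      obtain ⟨ε₂, hε₂, e₂⟩ := uf_mid_coord hα hαv.le hb hn₁.1 hn.1 hx₁ hx hxy hx₃'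
      have hbl : v b ≤ 1 := hb.le
      refine ⟨ε₁ + ε₂ + ε₁ * ε₂, v.map_add_le (v.map_add_le hε₁ hε₂)
        (vle_int_mul (hε₁.trans hbl) hε₂), ?_⟩
      have e₂' : uf α (k • Point.some x y hn) * uf α (Point.some x y hn)
          = uf α ((k + 1) • Point.some x y hn) * (1 + ε₂) := by
        rw [hk3, hkP, uf_some, uf_some, uf_some, e₂]
        simp only [hsum.1, hsum.2]
      rw [pow_succ, e₁]
      have : uf α (k • Point.some x y hn) * (1 + ε₁) * uf α (Point.some x y hn)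
          = (uf α (k • Point.some x y hn) * uf α (Point.some x y hn)) * (1 + ε₁) := by ring
      rw [this, e₂']
      ring
  have hp2 : 1 ≤ p - 1 := by have := hp.two_le; omega
  obtain ⟨ε, hε, e⟩ := key (p - 1) hp2 (by have := hp.pos; omega)
  have hneg : (p - 1) • Point.some x y hn = -Point.some x y hn := by
    have h1 : (p - 1) • Point.some x y hn + Point.some x y hn = 0 := by
      rw [← succ_nsmul, Nat.sub_add_cancel hp.one_le, hpP]
    exact eq_neg_of_add_eq_zero_left h1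
  rw [hneg] at e
  have hpow : uf α (Point.some x y hn) ^ p = 1 + ε := by
    have h1 : uf α (Point.some x y hn) ^ p
        = uf α (Point.some x y hn) ^ (p - 1) * uf α (Point.some x y hn) := by
      rw [← pow_succ, Nat.sub_add_cancel hp.one_le]
    rw [h1, e]
    have h3 := uf_neg_mid hα hαv.le hb hn hx
    calc uf α (-Point.some x y hn) * (1 + ε) * uf α (Point.some x y hn)
        = (uf α (-Point.some x y hn) * uf α (Point.some x y hn)) * (1 + ε) := by ring
      _ = 1 + ε := by rw [h3, one_mul]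
  have hmid := val_uf_sub_one_mid h2 hα hαv hb hn hx
  have hfar : v (ζ - 1) < v (uf α (Point.some x y hn) - 1) := by
    rw [hmid]
    exact val_lam_lt_one hp hζ hvp
  have h4 := val_pow_sub_one_of_far hp hζ hfar
  rw [hpow, add_sub_cancel_left, hmid, one_pow] at h4
  rw [h4] at hε
  exact absurd hb (not_lt.mpr hε)

end Main

end Fermat.Agent.MP.PEU.NoTors4
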