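/-
Programme MP, chapter PEU (helper4), file Tors4: **`E[p]` of the Frey curve seen in the model**.

`D : MData P`, `x : Tors P = E[p]`. `D.pt x` is its image in `Wab a b`, `D.V1` the subgroup of points
in the kernel of reduction, `D.uT x = u(pt x)`.

* `pt_add`, `pt_neg`, `pt_sub`, `pt_zero`, `pt_nsmul`, `smul_pt` (`p • pt x = 0`), `pt_injective`;
* `V1 : AddSubgroup (Tors P)`, `mem_V1`;
* Galois: `smul_mem_V1_iff` (decomposition group), `uT_smul` (inertia: `uT (σ • x) = σ (uT x)`);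
* the facts of V1Mu4 on `Tors P`: `exists_close`, `eq_zero_of_close_one`, `close_add`,
  `val_uT_sub_one`;
* `mem_V1_of_inE0` (no `p`-torsion in `E₀/E₁`), `exists_nsmul_sub_mem` (components).
-/
import Mathlib
import Fermat.Agent.MP.PEU.Iface4
import Fermat.Agent.MP.PEU.Model4
import Fermat.Agent.MP.PEU.V1Mu4
import Fermat.Agent.MP.PEU.NoTors4
import Fermat.Agent.MP.PEU.Comp4

set_option autoImplicit false
set_option linter.unusedSectionVars false
set_option linter.style.longLine false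

namespace Fermat.Agent.MP.PEU.Model4.MData

open WeierstrassCurve WeierstrassCurve.Affine WeierstrassCurve.Affine.Point
open Fermat.Agent.FF.BASE.Place2 Fermat.Agent.TW.FLAT.FlatModule6 Fermat.Agent.S05
open Fermat.Agent.S05.Kernel Fermat.Agent.MP.PEU.Val4 Fermat.Agent.MP.PEU.Iface4
open Fermat.Agent.MP.PEU.E1Hom4 Fermat.Agent.MP.PEU.Cyclo4
open scoped NNReal

noncomputable section

variable {P : FreyPackage} [Fact P.p.Prime] (D : MData P)

/-- the image of a `p`-torsion point in the model. -/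
def pt (x : Tors P) : (Wab D.a D.b).toAffine.Point := D.φ (x : (P.freyCurve⁄Qb).Point)

@[simp] theorem pt_zero : D.pt 0 = 0 := _root_.map_zero D.φ

theorem pt_add (x y : Tors P) : D.pt (x + y) = D.pt x + D.pt y := map_add D.φ _ _

theorem pt_neg (x : Tors P) : D.pt (-x) = -D.pt x := map_neg D.φ _

theorem pt_sub (x y : Tors P) : D.pt (x - y) = D.pt x - D.pt y := map_sub D.φ _ _

theorem pt_nsmul (n : ℕ) (x : Tors P) : D.pt (n • x) = n • D.pt x := map_nsmul D.φ _ _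

theorem pt_injective : Function.Injective D.pt := fun _ _ h =>
  Subtype.ext (D.φ.injective h)

theorem pt_eq_zero_iff {x : Tors P} : D.pt x = 0 ↔ x = 0 := by
  constructor
  · intro h; exact D.pt_injective (by rw [h, pt_zero])
  · rintro rfl; exact D.pt_zero

theorem nsmul_tors (x : Tors P) : P.p • x = 0 := by
  apply Subtype.ext
  have hx := x.2
  rw [Submodule.mem_torsionBy_iff] at hx
  rw [Submodule.coe_smul_of_tower, ← natCast_zsmul]
  exact hx

theorem smul_pt (x : Tors P) : P.p • D.pt x = 0 := by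
  rw [← pt_nsmul, nsmul_tors, pt_zero]

theorem va_le : vN P.p D.a ≤ 1 := D.va.le

theorem integral : IntegralCoeffs (vN P.p) (Wab D.a D.b).toAffine :=
  integralCoeffs_Wab D.va_le D.vb_lt_one.le

/-- the subgroup of `E[p]` of points in the kernel of reduction. -/
def V1 : AddSubgroup (Tors P) :=
  (Kernel.E1 (vN P.p) (Wab D.a D.b).toAffine D.integral).comap
    (D.φ.toAddMonoidHom.comp
      (Submodule.torsionBy ℤ (P.freyCurve⁄Qb).Point P.p).subtype.toAddMonoidHom)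

theorem mem_V1 {x : Tors P} : x ∈ D.V1 ↔ Kernel.InE1 (vN P.p) (D.pt x) := Iff.rfl

/-- `u` of a torsion point. -/
def uT (α : Qb) (x : Tors P) : Qb := uf α (D.pt x)

@[simp] theorem uT_zero (α : Qb) : D.uT α 0 = 1 := by rw [uT, pt_zero, uf_zero]

/-! ### Galois action -/

theorem pt_smul_zero (σ : GQ) {x : Tors P} (h : D.pt x = 0) : D.pt (σ • x) = 0 :=
  D.phi_smul_zero σ h

theorem pt_smul_some (σ : GQ) {x : Tors P} {X Y : Qb}
    {h : (Wab D.a D.b).toAffine.Nonsingular X Y} (hx : D.pt x = Point.some X Y h) :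
    ∃ h' : (Wab D.a D.b).toAffine.Nonsingular (σ X) (σ Y),
      D.pt (σ • x) = Point.some (σ X) (σ Y) h' :=
  D.phi_smul_some σ hx

theorem smul_mem_V1 {σ : GQ} (hσ : σ ∈ Dv P.p) {x : Tors P} (hx : x ∈ D.V1) :
    σ • x ∈ D.V1 := by
  rw [mem_V1] at hx ⊢
  rcases hpt : D.pt x with _ | ⟨X, Y, h⟩
  · have h0 : D.pt (σ • x) = 0 := D.pt_smul_zero σ hpt
    rw [h0]; exact inE1_zero _
  · obtain ⟨h', e⟩ := D.pt_smul_some σ hpt
    rw [hpt, inE1_some] at hx
    rw [e, inE1_some, vN_apply hσ]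
    exact hx

/-- `u` is equivariant for the inertia group. -/
theorem uT_smul {σ : GQ} (hσ : σ ∈ Iv P.p) (x : Tors P) :
    D.uT D.α (σ • x) = σ (D.uT D.α x) := by
  unfold uT
  rcases hpt : D.pt x with _ | ⟨X, Y, h⟩
  · have h0 : D.pt (σ • x) = 0 := D.pt_smul_zero σ hpt
    rw [h0]
    show uf D.α 0 = σ (uf D.α 0)
    rw [uf_zero, map_one]
  · obtain ⟨h', e⟩ := D.pt_smul_some σ hpt
    rw [e, uf_some, uf_some, map_div₀, map_sub, map_add, map_mul, D.α_fix hσ]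

/-! ### The facts of `V1Mu4` -/

variable {ζ : Qb} (hζ : IsPrimitiveRoot ζ P.p)
include hζ

theorem exists_close {x : Tors P} (hx : x ∈ D.V1) :
    ∃ k < P.p, vN P.p (D.uT D.α x - ζ ^ k) < vN P.p (ζ - 1) :=
  V1Mu4.exists_close D.v2 D.hα D.vα P.pp D.p_ne_two hζ vN_p_lt_one D.vb_le (D.mem_V1.mp hx)
    (D.smul_pt x)

theorem eq_zero_of_close_one {x : Tors P} (hx : x ∈ D.V1)
    (hc : vN P.p (D.uT D.α x - 1) < vN P.p (ζ - 1)) : x = 0 :=
  D.pt_eq_zero_iff.mp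
    (V1Mu4.eq_zero_of_close_one D.v2 D.hα D.vα P.pp D.p_ne_two hζ vN_p_lt_one D.vb_le
      (D.mem_V1.mp hx) (D.smul_pt x) hc)

theorem close_add {x y : Tors P} (hx : x ∈ D.V1) (hy : y ∈ D.V1) {j k : ℕ}
    (hj : vN P.p (D.uT D.α x - ζ ^ j) < vN P.p (ζ - 1))
    (hk : vN P.p (D.uT D.α y - ζ ^ k) < vN P.p (ζ - 1)) :
    vN P.p (D.uT D.α (x + y) - ζ ^ (j + k)) < vN P.p (ζ - 1) := by
  unfold uT
  rw [pt_add]
  exact V1Mu4.close_add D.v2 D.hα D.vα P.pp D.p_ne_two hζ vN_p_lt_one D.vb_le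
    (D.mem_V1.mp hx) (D.mem_V1.mp hy) hj hk

theorem val_uT_sub_one {x : Tors P} (hx : x ∈ D.V1) (h0 : x ≠ 0) :
    vN P.p (D.uT D.α x - 1) = vN P.p (ζ - 1) :=
  V1Mu4.val_uf_sub_one_of_torsion D.v2 D.hα D.vα P.pp D.p_ne_two hζ vN_p_lt_one D.vb_le
    (D.mem_V1.mp hx) (D.smul_pt x) (fun h => h0 (D.pt_eq_zero_iff.mp h))

/-- no `p`-torsion in `E₀ / E₁`. -/
theorem mem_V1_of_inE0 {x : Tors P} (hx : S05.InE0 (vN P.p) (D.pt x)) : x ∈ D.V1 :=
  D.mem_V1.mpr
    (NoTors4.inE1_of_nsmul_eq_zero D.v2 D.hα D.vα D.vb_lt_one D.b0 P.pp hζ vN_p_lt_one hx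
      (D.smul_pt x))

/-- components: every torsion point is a multiple of `y ∉ V1` modulo `V1`. -/
theorem exists_nsmul_sub_mem {y : Tors P} (hy : y ∉ D.V1) (x : Tors P) :
    ∃ j < P.p, x - j • y ∈ D.V1 := by
  have hy0 : ¬ S05.InE0 (vN P.p) (D.pt y) := fun h => hy (D.mem_V1_of_inE0 hζ h)
  obtain ⟨j, hj, h⟩ := Comp4.exists_nsmul_sub_inE0 D.v2 D.vb_lt_one D.b0 D.hα D.vα P.pp
    (D.smul_pt x) (D.smul_pt y) hy0
  refine ⟨j, hj, D.mem_V1_of_inE0 hζ ?_⟩
  rw [pt_sub, pt_nsmul]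
  exact h

end

end Fermat.Agent.MP.PEU.Model4.MData
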