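/-
Programme MP, chapter PEU (helper4), file Count4: **`V1 = E[p] ∩ E₁` is a line, generated by `ℓ₀` with
`u(ℓ₀) ≈ ζ`, and `E[p] = ⟨ℓ₀, y⟩`.**

* `kf : V1 →+ ZMod p` (the index of the close root of unity), `kf_spec`, `kf_injective`;
* `card_V1_le : Nat.card V1 ≤ p`;
* `card_tors : Nat.card (Tors P) = p ^ 2`;
* `exists_not_mem_V1`, `exists_ne_zero_mem_V1`;
* `exists_gen` : `∃ ℓ₀ ∈ V1, |u(ℓ₀) - ζ| < |ζ - 1| ∧ ∀ x ∈ V1, ∃ k < p, x = k • ℓ₀`;
* `smul_gen` : `σ • ℓ₀ = k • ℓ₀` when `σ ζ = ζ ^ k` (`σ` in the inertia group).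
-/
import Mathlib
import Fermat.Agent.MP.PEU.Tors4
import Fermat.Agent.DivPoly.CardEq29
import Fermat.Agent.S13.FreyTorsion

set_option autoImplicit false
set_option linter.unusedSectionVars false
set_option linter.style.longLine false

namespace Fermat.Agent.MP.PEU.Model4.MData

open WeierstrassCurve WeierstrassCurve.Affine WeierstrassCurve.Affine.Point
open Fermat.Agent.FF.BASE.Place2 Fermat.Agent.TW.FLAT.FlatModule6 Fermat.Agent.S05
open Fermat.Agent.S05.Kernel Fermat.Agent.MP.PEU.Val4 Fermat.Agent.MP.PEU.Iface4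
open Fermat.Agent.MP.PEU.E1Hom4 Fermat.Agent.MP.PEU.Cyclo4
open scoped NNReal

noncomputable section

variable {P : FreyPackage} [Fact P.p.Prime] (D : MData P) {ζ : Qb}
  (hζ : IsPrimitiveRoot ζ P.p)
include hζ

/-- the index of the root of unity close to `u(x)`, `x ∈ V1`. -/
def kfun (x : D.V1) : ZMod P.p := ((D.exists_close hζ x.2).choose : ZMod P.p)

theorem kfun_spec (x : D.V1) :
    vN P.p (D.uT D.α (x : Tors P) - ζ ^ (D.kfun hζ x).val) < vN P.p (ζ - 1) := by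
  obtain ⟨h1, h2⟩ := (D.exists_close hζ x.2).choose_spec
  rw [kfun, ZMod.val_natCast_of_lt h1]
  exact h2

/-- characterisation of `kfun`. -/
theorem kfun_eq (x : D.V1) {k : ℕ}
    (hk : vN P.p (D.uT D.α (x : Tors P) - ζ ^ k) < vN P.p (ζ - 1)) :
    D.kfun hζ x = (k : ZMod P.p) := by
  have h := close_unique P.pp hζ (D.kfun_spec hζ x) hk
  rw [← ZMod.natCast_eq_natCast_iff] at h
  rw [← h, ZMod.natCast_zmod_val]

theorem kfun_add (x y : D.V1) : D.kfun hζ (x + y) = D.kfun hζ x + D.kfun hζ y := by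
  have h := D.close_add hζ x.2 y.2 (D.kfun_spec hζ x) (D.kfun_spec hζ y)
  have := D.kfun_eq hζ (x + y) h
  rw [this]
  push_cast
  rw [ZMod.natCast_zmod_val, ZMod.natCast_zmod_val]

/-- the homomorphism `V1 → ZMod p`. -/
def kf : D.V1 →+ ZMod P.p where
  toFun := D.kfun hζ
  map_zero' := by
    have h : vN P.p (D.uT D.α ((0 : D.V1) : Tors P) - ζ ^ 0) < vN P.p (ζ - 1) := by
      rw [AddSubgroup.coe_zero, uT_zero, pow_zero, sub_self, _root_.map_zero]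
      exact val_lam_pos P.pp hζ
    simpa using D.kfun_eq hζ 0 h
  map_add' := D.kfun_add hζ

theorem kf_spec (x : D.V1) :
    vN P.p (D.uT D.α (x : Tors P) - ζ ^ (D.kf hζ x).val) < vN P.p (ζ - 1) :=
  D.kfun_spec hζ x

theorem kf_eq (x : D.V1) {k : ℕ}
    (hk : vN P.p (D.uT D.α (x : Tors P) - ζ ^ k) < vN P.p (ζ - 1)) :
    D.kf hζ x = (k : ZMod P.p) := D.kfun_eq hζ x hk

theorem kf_injective : Function.Injective (D.kf hζ) := by
  rw [injective_iff_map_eq_zero]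
  intro x hx
  have h := D.kf_spec hζ x
  rw [hx, ZMod.val_zero, pow_zero] at h
  exact Subtype.ext (D.eq_zero_of_close_one hζ x.2 h)

theorem card_V1_le : Nat.card D.V1 ≤ P.p := by
  have h := Nat.card_le_card_of_injective _ (D.kf_injective hζ)
  rwa [Nat.card_zmod] at h

omit hζ in
theorem card_tors : Nat.card (Tors P) = P.p ^ 2 :=
  Fermat.Agent.DivPoly.CardEq29.card_torsionBy_eq (W := (P.freyCurve⁄Qb))
    (Fermat.Agent.S13.FreyDelta.freyCurve_baseChange_Δ_ne_zero P Qb) P.hp_odd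

theorem exists_not_mem_V1 : ∃ y : Tors P, y ∉ D.V1 := by
  by_contra hcon
  push Not at hcon
  have htop : D.V1 = ⊤ := by
    rw [eq_top_iff]; intro y _; exact hcon y
  have h1 : Nat.card D.V1 = Nat.card (Tors P) := by
    rw [htop]
    exact Nat.card_congr (AddSubgroup.topEquiv (G := Tors P)).toEquiv
  have h2 := D.card_V1_le hζ
  rw [h1, card_tors] at h2
  have hp := P.pp.two_le
  nlinarith

theorem exists_ne_zero_mem_V1 : ∃ x ∈ D.V1, x ≠ 0 := by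
  by_contra hcon
  push Not at hcon
  obtain ⟨y, hy⟩ := D.exists_not_mem_V1 hζ
  -- every torsion point is a multiple of `y`
  have hsurj : Function.Surjective (fun j : Fin P.p => (j : ℕ) • y) := by
    intro x
    obtain ⟨j, hj, hmem⟩ := D.exists_nsmul_sub_mem hζ hy x
    refine ⟨⟨j, hj⟩, ?_⟩
    have := hcon _ hmem
    exact (sub_eq_zero.mp this).symm
  have : Finite (Tors P) := Fermat.Agent.S13.FreyTorsion.finite_torsion P
  have h1 := Nat.card_le_card_of_surjective _ hsurj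
  rw [card_tors, Nat.card_fin] at h1
  have hp := P.pp.two_le
  nlinarith

/-- **a generator of `V1` with `u(ℓ₀) ≈ ζ`.** -/
theorem exists_gen : ∃ ℓ₀ ∈ D.V1, ℓ₀ ≠ 0 ∧ vN P.p (D.uT D.α ℓ₀ - ζ) < vN P.p (ζ - 1) ∧
    ∀ x ∈ D.V1, ∃ k < P.p, x = k • ℓ₀ := by
  obtain ⟨ℓ, hℓ, hℓ0⟩ := D.exists_ne_zero_mem_V1 hζ
  have hk0 : D.kf hζ ⟨ℓ, hℓ⟩ ≠ 0 := by
    intro h
    have := D.kf_injective hζ (h.trans (_root_.map_zero _).symm)
    exact hℓ0 (congrArg Subtype.val this)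
  set j : ℕ := ((D.kf hζ ⟨ℓ, hℓ⟩)⁻¹).val with hj
  have hmem : j • ℓ ∈ D.V1 := D.V1.nsmul_mem hℓ j
  have hkf : D.kf hζ ⟨j • ℓ, hmem⟩ = 1 := by
    have e : (⟨j • ℓ, hmem⟩ : D.V1) = j • ⟨ℓ, hℓ⟩ := rfl
    rw [e, map_nsmul, nsmul_eq_mul, hj, ZMod.natCast_zmod_val, inv_mul_cancel₀ hk0]
  have hone : (1 : ZMod P.p).val = 1 := by
    have : Fact (1 < P.p) := ⟨P.pp.one_lt⟩
    exact ZMod.val_one P.p
  refine ⟨j • ℓ, hmem, ?_, ?_, ?_⟩
  · intro h0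
    have : (⟨j • ℓ, hmem⟩ : D.V1) = 0 := Subtype.ext h0
    rw [this, _root_.map_zero] at hkf
    exact zero_ne_one hkf
  · have := D.kf_spec hζ ⟨j • ℓ, hmem⟩
    rwa [hkf, hone, pow_one] at this
  · intro x hx
    refine ⟨(D.kf hζ ⟨x, hx⟩).val, ZMod.val_lt _, ?_⟩
    have h1 : D.kf hζ (⟨x, hx⟩ - (D.kf hζ ⟨x, hx⟩).val • ⟨j • ℓ, hmem⟩) = 0 := by
      rw [map_sub, map_nsmul, hkf, nsmul_eq_mul, mul_one, ZMod.natCast_zmod_val, sub_self]
    have h2 := D.kf_injective hζ (h1.trans (_root_.map_zero _).symm)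
    have h3 := congrArg Subtype.val h2
    simp only [AddSubgroup.coe_sub, AddSubgroup.coe_nsmul, AddSubgroup.coe_zero] at h3
    exact sub_eq_zero.mp h3

/-- the inertia group acts on the generator through the cyclotomic character. -/
theorem smul_gen {ℓ₀ : Tors P} (hℓ : ℓ₀ ∈ D.V1)
    (hu : vN P.p (D.uT D.α ℓ₀ - ζ) < vN P.p (ζ - 1)) {σ : GQ} (hσ : σ ∈ Iv P.p) {k : ℕ}
    (hk : σ ζ = ζ ^ k) : σ • ℓ₀ = k • ℓ₀ := by
  have hσℓ : σ • ℓ₀ ∈ D.V1 := D.smul_mem_V1 (Iv_le_Dv hσ) hℓ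
  have hkℓ : k • ℓ₀ ∈ D.V1 := D.V1.nsmul_mem hℓ k
  -- both have index `k`
  have h1 : vN P.p (D.uT D.α (σ • ℓ₀) - ζ ^ k) < vN P.p (ζ - 1) := by
    rw [D.uT_smul hσ, ← hk, ← map_sub, vN_apply_of_mem_Iv hσ]
    exact hu
  have h2 : D.kf hζ ⟨σ • ℓ₀, hσℓ⟩ = (k : ZMod P.p) := D.kf_eq hζ _ h1
  have h3 : D.kf hζ ⟨ℓ₀, hℓ⟩ = 1 := by
    have := D.kf_eq hζ ⟨ℓ₀, hℓ⟩ (k := 1) (by rw [pow_one]; exact hu)
    simpa using this
  have h4 : D.kf hζ ⟨k • ℓ₀, hkℓ⟩ = (k : ZMod P.p) := by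
    have e : (⟨k • ℓ₀, hkℓ⟩ : D.V1) = k • ⟨ℓ₀, hℓ⟩ := rfl
    rw [e, map_nsmul, h3, nsmul_eq_mul, mul_one]
  have h5 := D.kf_injective hζ (h2.trans h4.symm)
  exact congrArg Subtype.val h5

end

end Fermat.Agent.MP.PEU.Model4.MData
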