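/-
Programme MP, chapter PEU (helper4), file Lift4: **a nearby point with prescribed `x`-coordinate**
(generic valued field, model `Wab a b`, `v a = 1`, `v b < 1`).

* `exists_near` : `(x, x s)` on the curve with `v b < v x < 1`, `x₀` with `v (x₀ - x) < v x`: there is
  `s₀` with `(x₀, x₀ s₀)` a nonsingular point, `v (s₀ - s) < 1`, `v s₀ = 1`, and
  `(x, x s) - (x₀, x₀ s₀) ∈ E₁`;
* `not_far_of_torsion` : a `p`-torsion point (`p` odd) outside `E₀` has `v b < v x < 1`.
-/
import Mathlib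
import Fermat.Agent.S05.Mult
import Fermat.Agent.S05.Components
import Fermat.Agent.MP.PEU.Comp4

set_option autoImplicit false
set_option linter.unusedSectionVars false
set_option linter.style.longLine false

namespace Fermat.Agent.MP.PEU.Lift4

open WeierstrassCurve WeierstrassCurve.Affine Fermat.Agent.S05 Fermat.Agent.S05.Mult

variable {K : Type*} [Field K] [DecidableEq K] {Γ₀ : Type*} [LinearOrderedCommGroupWithZero Γ₀]
  {v : Valuation K Γ₀} {a b : K}

/-- **a nearby point with prescribed `x`-coordinate.** -/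
theorem exists_near [IsAlgClosed K] (h2 : v (2 : K) = 1) (ha : v a = 1) (hb0 : b ≠ 0) {x s x₀ : K}
    (h : (Wab a b).toAffine.Nonsingular x (x * s)) (hxb : v b < v x) (hx1 : v x < 1)
    (hx₀ : v (x₀ - x) < v x) :
    ∃ (s₀ : K) (h₀ : (Wab a b).toAffine.Nonsingular x₀ (x₀ * s₀)),
      s₀ ^ 2 = x₀ + a + b / x₀ ∧ v (s₀ - s) < 1 ∧ v s₀ = 1 ∧
      S05.InE1 v (Point.some x (x * s) h - Point.some x₀ (x₀ * s₀) h₀) := by
  have h20 : (2 : K) ≠ 0 := by
    intro h0; rw [h0, map_zero] at h2; exact zero_ne_one h2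
  have hb0' : 0 < v b := by rw [Valuation.pos_iff]; exact hb0
  have hxpos : 0 < v x := lt_trans hb0' hxb
  have hx0 : x ≠ 0 := by rw [← Valuation.pos_iff v]; exact hxpos
  -- `v x₀ = v x`
  have hvx₀ : v x₀ = v x := by
    have e : x₀ = x + (x₀ - x) := by ring
    rw [e, v.map_add_eq_of_lt_left hx₀]
  have hx₀0 : x₀ ≠ 0 := by rw [← Valuation.pos_iff v, hvx₀]; exact hxpos
  have es := s_sq h hx0
  -- `s` is a unit
  have hbx : v (b / x) < 1 := by rw [map_div₀]; exact (div_lt_one₀ hxpos).mpr hxb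
  have hs1 : v s = 1 := by
    apply val_eq_one_of_sq
    have e : s ^ 2 = a + (x + b / x) := by rw [es]; ring
    rw [e, v.map_add_eq_of_lt_left (show v (x + b / x) < v a by
      rw [ha]; exact v.map_add_lt hx1 hbx), ha]
  -- a square root of `x₀ + a + b / x₀`
  obtain ⟨r, hr⟩ := IsAlgClosed.exists_pow_nat_eq (x₀ + a + b / x₀) (n := 2) (by norm_num)
  -- `r² - s²` is small
  have hdiff : r ^ 2 - s ^ 2 = (x₀ - x) * (1 - b / (x * x₀)) := by
    rw [hr, es]; field_simp; ring
  have hsmall : v (r ^ 2 - s ^ 2) < 1 := by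
    rw [hdiff, mul_sub, mul_one]
    refine v.map_sub_lt (lt_trans hx₀ hx1) ?_
    rw [map_mul, map_div₀, map_mul, hvx₀]
    have e : v (x₀ - x) * (v b / (v x * v x)) = (v (x₀ - x) / v x) * (v b / v x) := by
      field_simp
    rw [e]
    have h1 : v (x₀ - x) / v x < 1 := (div_lt_one₀ hxpos).mpr hx₀
    have h3 : v b / v x < 1 := (div_lt_one₀ hxpos).mpr hxb
    calc v (x₀ - x) / v x * (v b / v x) ≤ 1 * (v b / v x) := mul_le_mul' h1.le le_rfl
      _ = v b / v x := one_mul _
      _ < 1 := h3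
  have hprod : v (r - s) * v (r + s) < 1 := by
    rw [← map_mul]
    have : (r - s) * (r + s) = r ^ 2 - s ^ 2 := by ring
    rw [this]; exact hsmall
  -- choose the sign
  have key : ∃ s₀ : K, s₀ ^ 2 = x₀ + a + b / x₀ ∧ v (s₀ - s) < 1 := by
    by_cases hc : v (r - s) < 1
    · exact ⟨r, hr, hc⟩
    · refine ⟨-r, by rw [neg_sq, hr], ?_⟩
      push Not at hc
      have h3 : v (r + s) < 1 := by
        by_contra h4
        push Not at h4
        have : (1 : Γ₀) ≤ v (r - s) * v (r + s) := by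
          calc (1 : Γ₀) = 1 * 1 := (one_mul 1).symm
            _ ≤ v (r - s) * v (r + s) := mul_le_mul' hc h4
        exact absurd hprod (not_lt.mpr this)
      have e : -r - s = -(r + s) := by ring
      rw [e, Valuation.map_neg]; exact h3
  obtain ⟨s₀, hs₀, hclose⟩ := key
  have hs₀1 : v s₀ = 1 := by
    have e : s₀ = s + (s₀ - s) := by ring
    rw [e, v.map_add_eq_of_lt_left (by rw [hs1]; exact hclose), hs1]
  have hs₀0 : s₀ ≠ 0 := by
    intro h0; rw [h0, map_zero] at hs₀1; exact zero_ne_one hs₀1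
  -- nonsingularity
  have h₀ : (Wab a b).toAffine.Nonsingular x₀ (x₀ * s₀) := by
    rw [Wab_nonsingular_iff]
    constructor
    · have : (x₀ * s₀) ^ 2 = x₀ ^ 2 * (x₀ + a + b / x₀) := by rw [mul_pow, hs₀]
      rw [this]; field_simp
    · right
      intro h3
      have h4 : 2 * (x₀ * s₀) = 0 := by linear_combination h3
      rcases mul_eq_zero.mp h4 with h5 | h5
      · exact h20 h5
      · rcases mul_eq_zero.mp h5 with h6 | h6
        · exact hx₀0 h6
        · exact hs₀0 h6
  refine ⟨s₀, h₀, hs₀, hclose, hs₀1, ?_⟩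
  -- the difference lies in `E₁`
  by_cases hxx : x = x₀
  · subst hxx
    have hsq : s₀ ^ 2 = s ^ 2 := by rw [hs₀, es]
    have hmul : (s₀ - s) * (s₀ + s) = 0 := by linear_combination hsq
    have hadd : v (s₀ + s) = 1 := val_add_eq_one h2 hs1 hclose
    have hss : s₀ = s := by
      rcases mul_eq_zero.mp hmul with h3 | h3
      · exact sub_eq_zero.mp h3
      · rw [h3, map_zero] at hadd; exact absurd hadd zero_ne_one
    subst hss
    rw [sub_self]; trivial
  · obtain ⟨hN, eN⟩ := neg_xs h₀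
    obtain ⟨y₃, h₃, e₃⟩ := add_xs_chord h hN hx0 hx₀0 hxx
    rw [sub_eq_add_neg, eN, e₃, InE1_some]
    have hne : x - x₀ ≠ 0 := sub_ne_zero.mpr hxx
    have hpos : 0 < v (x - x₀) := by rw [Valuation.pos_iff]; exact hne
    have hadd : v (s - -s₀) = 1 := by
      rw [sub_neg_eq_add, add_comm]; exact val_add_eq_one h2 hs1 hclose
    rw [map_div₀, map_mul, map_mul, map_pow, map_pow, hadd, hvx₀, one_pow,
      mul_one, one_lt_div₀ (pow_pos hpos 2), ← pow_two]
    rw [Valuation.map_sub_swap] at hx₀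
    exact pow_lt_pow_left₀ hx₀ zero_le (by norm_num)

/-- a `p`-torsion point (`p` odd) outside `E₀` is on a branch: `v b < v x < 1`. -/
theorem not_far_of_torsion (h2 : v (2 : K) = 1) (hb : v b < 1) (hb0 : b ≠ 0) {α : K}
    (hα : α ^ 2 = a) (hαv : v α = 1) {p : ℕ} (hp : Odd p) {x y : K}
    (h : (Wab a b).toAffine.Nonsingular x y) (hpP : p • Point.some x y h = 0) :
    v b < v x := by
  by_contra hcon
  push Not at hcon
  have h0 := Comp4.vb_pos (v := v) hb0
  obtain ⟨ε, e, he, -⟩ := Comp4.hasExp_of_torsion h2 hb hb0 hα hαv hpP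
  rw [cval_of_far hb α h hcon, ← zpow_natCast] at he
  have h3 : (p : ℤ) = 2 * e := zpow_right_injective₀ h0 hb.ne he
  obtain ⟨m, hm⟩ := hp
  omega

end Fermat.Agent.MP.PEU.Lift4
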