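/-
Programme MP, chapter PEU (helper4), file Gal4: **Galois facts on the model** (Frey side).

* `close_at_p` : `σ • x - x ∈ D.V1` for `σ` in the inertia group (from S13/FreyE1.close_at_p);
* `uf_phi_smul` : `u(φ(σ • Q)) = σ(u(φ Q))` for every point `Q` and `σ` in the inertia group;
* `zc_phi_fixed` : the parameter `z(φ Q)` of an inertia-fixed point is inertia-fixed;
* `val_zc_cases` : for an inertia-fixed point `Q` with `φ Q ∈ E₁`: `|z| = |p|` or `|z| ≤ |p|²`;
* `exists_lift` : for `y ∈ E[p] ∖ V1` there is an inertia-fixed point `y₀` with `φ(y - y₀) ∈ E₁`.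
-/
import Mathlib
import Fermat.Agent.MP.PEU.Count4
import Fermat.Agent.MP.PEU.Lift4
import Fermat.Agent.S13.FreyE1
import Fermat.Agent.FF.IFACE.Teich8

set_option autoImplicit false
set_option linter.unusedSectionVars false
set_option linter.style.longLine false

namespace Fermat.Agent.MP.PEU.Model4.MData

open WeierstrassCurve WeierstrassCurve.Affine WeierstrassCurve.Affine.Point
open Fermat.Agent.FF.BASE.Place2 Fermat.Agent.TW.FLAT.FlatModule6 Fermat.Agent.S05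
open Fermat.Agent.S05.Kernel Fermat.Agent.MP.PEU.Val4 Fermat.Agent.MP.PEU.Iface4
open Fermat.Agent.MP.PEU.E1Hom4 Fermat.Agent.MP.PEU.Cyclo4
open scoped NNReal

noncomputable section

variable {P : FreyPackage} [Fact P.p.Prime] (D : MData P)

/-- `E₁` for `A.valuation` and for `vN p` agree (on any curve over `ℚ̄`). -/
theorem inE1_vN_of_valuation {W : Affine Qb} {Q : W.Point}
    (h : Kernel.InE1 (padicPlace P.p).valuation Q) : Kernel.InE1 (vN P.p) Q := by
  rcases h with rfl | ⟨x, y, hn, rfl, hx⟩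
  · exact inE1_zero _
  · rw [inE1_some]
    by_contra hcon
    have h1 : vN P.p x ≤ 1 := not_lt.mp hcon
    have h2 : (padicPlace P.p).valuation x ≤ 1 :=
      (ValuationSubring.valuation_le_one_iff _ _).mpr (vN_le_one_iff.mp h1)
    exact absurd hx (not_lt.mpr h2)

/-- `S05.InE1` and `Kernel.InE1` agree on the model. -/
theorem kernel_inE1_of_S05 {a b : Qb} {Q : (Wab a b).toAffine.Point}
    (h : S05.InE1 (vN P.p) Q) : Kernel.InE1 (vN P.p) Q := by
  rcases Q with _ | ⟨x, y, hn⟩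
  · exact inE1_zero _
  · rw [inE1_some]; exact h

theorem S05_inE1_of_kernel {a b : Qb} {Q : (Wab a b).toAffine.Point}
    (h : Kernel.InE1 (vN P.p) Q) : S05.InE1 (vN P.p) Q := by
  rcases Q with _ | ⟨x, y, hn⟩
  · trivial
  · rw [inE1_some] at h; exact h

/-- **closeness at `p`** in the model. -/
theorem close_at_p {σ : GQ} (hσ : σ ∈ Iv P.p) (x : Tors P) : σ • x - x ∈ D.V1 := by
  have h1 := Fermat.Agent.S13.FreyE1.close_at_p P (liesOverPrime P.p) hσ x
  rw [Fermat.Agent.S13.FreyE1.mem_V1] at h1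
  have h3 := inE1_vN_of_valuation h1
  rw [Fermat.Agent.S13.FreyE1.inE1_freyEquiv_iff P (vN P.p) D.v2 D.ht D.ha D.hb D.vt] at h3
  exact D.mem_V1.mpr (kernel_inE1_of_S05 h3)

/-- `u ∘ φ` is equivariant for the inertia group (all points). -/
theorem uf_phi_smul {σ : GQ} (hσ : σ ∈ Iv P.p) (Q : (P.freyCurve⁄Qb).Point) :
    uf D.α (D.φ (σ • Q)) = σ (uf D.α (D.φ Q)) := by
  rcases hpt : D.φ Q with _ | ⟨X, Y, h⟩
  · have h0 : D.φ (σ • Q) = 0 := D.phi_smul_zero σ hpt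
    rw [h0]
    show uf D.α 0 = σ (uf D.α 0)
    rw [uf_zero, map_one]
  · obtain ⟨h', e⟩ := D.phi_smul_some σ hpt
    rw [e, uf_some, uf_some, map_div₀, map_sub, map_add, map_mul, D.α_fix hσ]

/-- the parameter of an inertia-fixed point is inertia-fixed. -/
theorem zc_phi_fixed {σ : GQ} {Q : (P.freyCurve⁄Qb).Point} (hQ : σ • Q = Q) :
    σ (zc (D.φ Q)) = zc (D.φ Q) := by
  rcases hpt : D.φ Q with _ | ⟨X, Y, h⟩
  · show σ (zc (0 : (Wab D.a D.b).toAffine.Point)) = zc (0 : (Wab D.a D.b).toAffine.Point)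
    rw [zc_zero, _root_.map_zero]
  · obtain ⟨h', e⟩ := D.phi_smul_some σ hpt
    rw [hQ, hpt, Point.some.injEq] at e
    rw [zc_some, map_div₀, map_neg, ← e.1, ← e.2]

/-- for an inertia-fixed point in the kernel of reduction, `|z| = |p|` or `|z| ≤ |p|²`. -/
theorem val_zc_cases {Q : (P.freyCurve⁄Qb).Point} (hQ : ∀ σ ∈ Iv P.p, σ • Q = Q)
    (hE : Kernel.InE1 (vN P.p) (D.φ Q)) :
    vN P.p (zc (D.φ Q)) = vN P.p ((P.p : ℕ) : Qb) ∨
      vN P.p (zc (D.φ Q)) ≤ vN P.p ((P.p : ℕ) : Qb) ^ 2 := by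
  set z := zc (D.φ Q) with hz
  have hlt : vN P.p z < 1 := hE.zc_lt_one D.integral
  by_cases hz0 : z = 0
  · right; rw [hz0, _root_.map_zero]; exact zero_le
  have hW : z ∈ Wur P.p := by
    rw [mem_Wur_iff]
    refine ⟨?_, fun σ hσ => D.zc_phi_fixed (hQ σ hσ)⟩
    have := hlt.le
    rwa [← NNReal.coe_le_coe, vN_coe, NNReal.coe_one] at this
  obtain ⟨n, u, hu, hu', e⟩ := Wur.exists_eq_pow_mul hW hz0
  have hu1 : vN P.p u = 1 := by
    have h1 : vN P.p u ≤ 1 := vN_le_one_iff.mpr hu.1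
    have h2 : vN P.p u⁻¹ ≤ 1 := vN_le_one_iff.mpr hu'.1
    rw [map_inv₀] at h2
    have hu0 : u ≠ 0 := by
      rintro rfl; rw [mul_zero] at e; exact hz0 e
    have hpos : 0 < vN P.p u := by rw [Valuation.pos_iff]; exact hu0
    rw [inv_le_one₀ hpos] at h2
    exact le_antisymm h1 h2
  have hv : vN P.p z = vN P.p ((P.p : ℕ) : Qb) ^ n := by
    rw [e, map_mul, map_pow, hu1, mul_one]
  have hp1 := vN_p_lt_one (p := P.p)
  rcases Nat.lt_or_ge n 2 with hn | hn
  · left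
    interval_cases n
    · rw [hv, pow_zero] at hlt; exact absurd hlt (lt_irrefl _)
    · rw [hv, pow_one]
  · right
    rw [hv]
    exact pow_le_pow_right_of_le_one' hp1.le hn

/-- **the unramified lift**: for `y ∈ E[p] ∖ V1` there is an inertia-fixed point `y₀` of the Frey
curve with `φ(y - y₀)` in the kernel of reduction. -/
theorem exists_lift {ζ : Qb} (hζ : IsPrimitiveRoot ζ P.p) {y : Tors P} (hy : y ∉ D.V1) :
    ∃ y₀ : (P.freyCurve⁄Qb).Point, (∀ σ ∈ Iv P.p, σ • y₀ = y₀) ∧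
      Kernel.InE1 (vN P.p) (D.φ ((y : (P.freyCurve⁄Qb).Point) - y₀)) := by
  have hp : P.p.Prime := P.pp
  -- the point in the model
  have hy0 : ¬ S05.InE0 (vN P.p) (D.pt y) := fun h => hy (D.mem_V1_of_inE0 hζ h)
  rcases hpt : D.pt y with _ | ⟨X, Yc, h⟩
  · rw [hpt] at hy0; exact absurd trivial hy0
  rw [hpt] at hy0
  have hX1 : vN P.p X < 1 := not_le.mp hy0
  have htors : P.p • Point.some X Yc h = 0 := by rw [← hpt]; exact D.smul_pt y
  have hXb : vN P.p D.b < vN P.p X :=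
    Lift4.not_far_of_torsion D.v2 D.vb_lt_one D.b0 D.hα D.vα P.hp_odd h htors
  have hX0 : X ≠ 0 := by
    rintro rfl; rw [_root_.map_zero] at hXb; exact not_lt_zero hXb
  obtain ⟨h', e'⟩ := some_eq_xs h hX0
  set s := Yc / X with hs
  -- the norm of `X` is the norm of a rational number
  obtain ⟨k, hk⟩ := comp_torsion (vN P.p) D.v2 D.vb_lt_one D.b0 D.α D.hα D.vα h hX1 hXb htors
  obtain ⟨c, hc⟩ : ∃ c : Qb, c = D.h ^ (2 * k) := ⟨_, rfl⟩
  have hc0 : c ≠ 0 := by rw [hc]; exact zpow_ne_zero _ D.h0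
  have hσc : ∀ σ : GQ, σ c = c := fun σ => by rw [hc, map_zpow₀, D.h_fix]
  have hvc : vN P.p X = vN P.p c := by
    have e1 : vN P.p X ^ P.p = vN P.p c ^ P.p := by
      rw [hk, D.vbh, hc, map_zpow₀, ← zpow_natCast (vN P.p D.h) P.p, ← zpow_mul, ← zpow_natCast,
        ← zpow_mul, mul_comm]
    exact (pow_left_inj₀ zero_le zero_le P.hp0).mp e1
  have hcpos : 0 < vN P.p c := by rw [Valuation.pos_iff]; exact hc0
  -- Teichmüller lift of `X / c`
  have hu1 : vN P.p (X / c) = 1 := by rw [map_div₀, hvc, div_self hcpos.ne']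
  have huA : X / c ∈ padicPlace P.p := vN_le_one_iff.mp hu1.le
  obtain ⟨θ, hθ, hθfix⟩ := Fermat.Agent.FF.IFACE.Teich8.exists_teichmuller hp
    (liesOverPrime P.p) (IsLocalRing.residue (padicPlace P.p) ⟨X / c, huA⟩)
  have hθclose : vN P.p ((θ : Qb) - X / c) < 1 := by
    rw [vN_lt_one_iff]
    have h1 : IsLocalRing.residue (padicPlace P.p) (θ - ⟨X / c, huA⟩) = 0 := by
      rw [map_sub, hθ, sub_self]
    rw [IsLocalRing.residue_eq_zero_iff, ← ValuationSubring.coe_mem_nonunits_iff] at h1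
    exact h1
  -- the new `x`-coordinate
  obtain ⟨X₀, hX₀⟩ : ∃ X₀ : Qb, X₀ = c * θ := ⟨_, rfl⟩
  have hX₀close : vN P.p (X₀ - X) < vN P.p X := by
    have e1 : X₀ - X = c * ((θ : Qb) - X / c) := by rw [hX₀]; field_simp
    rw [e1, map_mul, hvc]
    calc vN P.p c * vN P.p ((θ : Qb) - X / c) < vN P.p c * 1 :=
          (mul_lt_mul_iff_right₀ hcpos).mpr hθclose
      _ = vN P.p c := mul_one _
  have hX₀fix : ∀ σ ∈ Iv P.p, σ X₀ = X₀ := fun σ hσ => by
    rw [hX₀, map_mul, hσc, hθfix σ hσ]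
  obtain ⟨s₀, h₀, hs₀, hclose, hs₀1, hE⟩ :=
    Lift4.exists_near D.v2 D.va D.b0 h' hXb hX1 hX₀close
  -- `s₀` is fixed by inertia
  have hs₀fix : ∀ σ ∈ Iv P.p, σ s₀ = s₀ := by
    intro σ hσ
    have h1 : σ s₀ ^ 2 = s₀ ^ 2 := by
      rw [← map_pow, hs₀, map_add, map_add, map_div₀, hX₀fix σ hσ, D.a_fix, D.b_fix]
    have h3 : (σ s₀ - s₀) * (σ s₀ + s₀) = 0 := by linear_combination h1
    rcases mul_eq_zero.mp h3 with h4 | h4
    · exact sub_eq_zero.mp h4
    · exfalso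
      have h5 : σ s₀ - s₀ = -(2 * s₀) := by linear_combination h4
      have h6 := vN_sub_lt_one hσ hs₀1.le
      rw [h5, Valuation.map_neg, map_mul, D.v2, hs₀1, one_mul] at h6
      exact lt_irrefl _ h6
  -- the lift
  refine ⟨D.φ.symm (Point.some X₀ (X₀ * s₀) h₀), ?_, ?_⟩
  · intro σ hσ
    apply D.φ.injective
    have hφ : D.φ (D.φ.symm (Point.some X₀ (X₀ * s₀) h₀)) = Point.some X₀ (X₀ * s₀) h₀ :=
      D.φ.apply_symm_apply _
    obtain ⟨h'', e''⟩ := D.phi_smul_some σ hφ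
    rw [e'', hφ, Point.some.injEq]
    exact ⟨hX₀fix σ hσ, by rw [map_mul, hX₀fix σ hσ, hs₀fix σ hσ]⟩
  · rw [map_sub, D.φ.apply_symm_apply]
    have e1 : D.φ (y : (P.freyCurve⁄Qb).Point) = Point.some X (X * s) h' := by
      have : D.φ (y : (P.freyCurve⁄Qb).Point) = D.pt y := rfl
      rw [this, hpt, e']
    rw [e1]
    exact kernel_inE1_of_S05 hE

end

end Fermat.Agent.MP.PEU.Model4.MData
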