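/-
Programme MP, chapter PEU (helper4), file Main4: **the theorem of chapter PEU**.

`peuFrey (P : FreyPackage) : Iface4.PeuFrey P` : for the Frey curve at a prime `p ∣ abc`, the inertia
group at `p` acts on `E[p]` in shape (C) (`Iface4.PeuData`): `E[p] = ⟨ℓ₀, y⟩`, `σ ℓ₀ = χ(σ) ℓ₀`,
`σ y - y = κ(σ) ℓ₀`, and `κ|Γ_L` is peu ramifié: it vanishes, or there is a break-1 element
(`Iface4.Break`).

Proof: `ℓ₀` generates `V1 = E[p] ∩ E₁` with `u(ℓ₀) ≈ ζ` (Count4), `y ∉ V1`; `y₀` an inertia-fixed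
point with `T = φ(y - y₀) ∈ E₁` (Gal4.exists_lift); `R = p • T = φ(-p • y₀)` is inertia-fixed, so
`|z(R)| = |p|` or `|z(R)| ≤ |p|²` (Gal4.val_zc_cases); in the first case `t = u(T) - 1` is a break-1
element, in the second `u(T)` is close to a root of unity and `κ|Γ_L = 0` (Break4).
-/
import Mathlib
import Fermat.Agent.MP.PEU.Gal4
import Fermat.Agent.MP.PEU.Break4

set_option autoImplicit false
set_option linter.unusedSectionVars false
set_option linter.style.longLine false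

namespace Fermat.Agent.MP.PEU.Main4

open WeierstrassCurve WeierstrassCurve.Affine WeierstrassCurve.Affine.Point
open Fermat.Agent.FF.BASE.Place2 Fermat.Agent.TW.FLAT.FlatModule6 Fermat.Agent.S05
open Fermat.Agent.S05.Kernel Fermat.Agent.MP.PEU.Val4 Fermat.Agent.MP.PEU.Iface4
open Fermat.Agent.MP.PEU.E1Hom4 Fermat.Agent.MP.PEU.Cyclo4 Fermat.Agent.MP.PEU.Model4
open scoped NNReal

noncomputable section

variable {P : FreyPackage} [Fact P.p.Prime]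

/-! ### Multiples of torsion points -/

/-- multiples of a torsion point depend only on the class modulo `p`. -/
theorem nsmul_eq_of_cast_eq (x : Tors P) {n m : ℕ} (h : (n : ZMod P.p) = m) : n • x = m • x := by
  have key : ∀ n : ℕ, n • x = (n % P.p) • x := by
    intro n
    conv_lhs => rw [← Nat.mod_add_div n P.p]
    rw [add_smul, mul_comm, mul_smul, MData.nsmul_tors x, smul_zero, add_zero]
  rw [key n, key m, (ZMod.natCast_eq_natCast_iff' n m P.p).mp h]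

theorem eq_zero_of_nsmul_eq_zero (x : Tors P) {a : ZMod P.p} (ha : a ≠ 0)
    (h : a.val • x = 0) : x = 0 := by
  have h1 : ((a⁻¹).val * a.val) • x = 1 • x := by
    apply nsmul_eq_of_cast_eq
    push_cast
    rw [ZMod.natCast_zmod_val, ZMod.natCast_zmod_val, inv_mul_cancel₀ ha]
  rw [one_smul, mul_smul, h, smul_zero] at h1
  exact h1.symm

variable {ζ : Qb} (hζ : IsPrimitiveRoot ζ P.p)
include hζ

/-- the cyclotomic character. -/
theorem exists_chi (σ : GQ) : ∃ k : ZMod P.p, σ ζ = ζ ^ k.val := by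
  have : NeZero P.p := ⟨P.hp0⟩
  have h1 : (σ ζ) ^ P.p = 1 := by rw [← map_pow, hζ.pow_eq_one, map_one]
  obtain ⟨i, hi, e⟩ := hζ.eq_pow_of_pow_eq_one h1
  exact ⟨(i : ZMod P.p), by rw [ZMod.val_natCast_of_lt hi, e]⟩

variable (D : MData P)

theorem close_nsmul {ℓ₀ : Tors P} (hℓ : ℓ₀ ∈ D.V1)
    (hu : vN P.p (D.uT D.α ℓ₀ - ζ) < vN P.p (ζ - 1)) (n : ℕ) :
    vN P.p (D.uT D.α (n • ℓ₀) - ζ ^ n) < vN P.p (ζ - 1) := by
  induction n with
  | zero =>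
    rw [zero_smul, MData.uT_zero, pow_zero, sub_self, _root_.map_zero]
    exact val_lam_pos P.pp hζ
  | succ n ih =>
    rw [succ_nsmul]
    exact D.close_add hζ (D.V1.nsmul_mem hℓ n) hℓ ih (by rw [pow_one]; exact hu)

/-! ### The dichotomy -/

section Dichotomy

variable {ℓ₀ y : Tors P} (hℓ : ℓ₀ ∈ D.V1) (hℓ0 : ℓ₀ ≠ 0)
  (hu : vN P.p (D.uT D.α ℓ₀ - ζ) < vN P.p (ζ - 1))
  {κ : GQ → ZMod P.p} (hκ : ∀ σ ∈ Iv P.p, σ • y - y = (κ σ).val • ℓ₀)
  {y₀ : (P.freyCurve⁄Qb).Point} (hy₀ : ∀ σ ∈ Iv P.p, σ • y₀ = y₀)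
  (hE : Kernel.InE1 (vN P.p) (D.φ ((y : (P.freyCurve⁄Qb).Point) - y₀)))

omit hζ in
include hκ hy₀ in
theorem smul_Q {σ : GQ} (hσ : σ ∈ Iv P.p) :
    σ • ((y : (P.freyCurve⁄Qb).Point) - y₀) = ((y : (P.freyCurve⁄Qb).Point) - y₀) +
      (((κ σ).val • ℓ₀ : Tors P) : (P.freyCurve⁄Qb).Point) := by
  have h1 : ((σ • y - y : Tors P) : (P.freyCurve⁄Qb).Point) =
      (((κ σ).val • ℓ₀ : Tors P) : (P.freyCurve⁄Qb).Point) := congrArg Subtype.val (hκ σ hσ)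
  have h2 : ((σ • y - y : Tors P) : (P.freyCurve⁄Qb).Point) =
      σ • (y : (P.freyCurve⁄Qb).Point) - y := rfl
  rw [smul_sub, hy₀ σ hσ, ← h1, h2]
  abel

omit hζ in
include hκ hy₀ in
theorem phi_smul_Q {σ : GQ} (hσ : σ ∈ Iv P.p) :
    D.φ (σ • ((y : (P.freyCurve⁄Qb).Point) - y₀)) =
      D.φ ((y : (P.freyCurve⁄Qb).Point) - y₀) + D.pt ((κ σ).val • ℓ₀) := by
  rw [smul_Q hκ hy₀ hσ, map_add]; rfl

omit hζ in
include hκ hy₀ in
theorem smul_p_Q {σ : GQ} (hσ : σ ∈ Iv P.p) :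
    σ • (P.p • ((y : (P.freyCurve⁄Qb).Point) - y₀)) =
      P.p • ((y : (P.freyCurve⁄Qb).Point) - y₀) := by
  have h1 : P.p • (((κ σ).val • ℓ₀ : Tors P) : (P.freyCurve⁄Qb).Point) = 0 :=
    congrArg Subtype.val (MData.nsmul_tors ((κ σ).val • ℓ₀))
  have hc : σ • (P.p • ((y : (P.freyCurve⁄Qb).Point) - y₀)) =
      P.p • (σ • ((y : (P.freyCurve⁄Qb).Point) - y₀)) :=
    map_nsmul (DistribSMul.toAddMonoidHom (P.freyCurve⁄Qb).Point σ) P.p _
  rw [hc, smul_Q hκ hy₀ hσ, nsmul_add, h1, add_zero]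

include hℓ hℓ0 hκ hy₀ hE in
/-- first case: a break-1 element. -/
theorem break_of_val_eq
    (hR : vN P.p (zc (D.φ (P.p • ((y : (P.freyCurve⁄Qb).Point) - y₀)))) =
      vN P.p ((P.p : ℕ) : Qb)) :
    Break P.p ζ κ (uf D.α (D.φ ((y : (P.freyCurve⁄Qb).Point) - y₀)) - 1) := by
  obtain ⟨T, hT⟩ : ∃ T, T = D.φ ((y : (P.freyCurve⁄Qb).Point) - y₀) := ⟨_, rfl⟩
  rw [map_nsmul] at hR
  rw [← hT] at hR hE ⊢
  have h1 := Break4.val_pow_eq_of_val_p D.v2 D.hα D.vα P.pp D.p_ne_two hζ vN_p_lt_one D.vb_le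
    hE hR
  refine ⟨?_, ?_, ?_⟩
  · have h3 : ((vN P.p (uf D.α T - 1) ^ P.p : ℝ≥0) : ℝ) =
        ((vN P.p ((P.p : ℕ) : Qb) : ℝ≥0) : ℝ) := congrArg _ h1
    rw [NNReal.coe_pow, vN_coe, vN_coe, nrm_natCast_self] at h3
    exact h3
  · intro σ hσ _ hκ0
    have e := phi_smul_Q D hκ hy₀ hσ
    rw [hκ0, ZMod.val_zero, zero_smul, MData.pt_zero, add_zero] at e
    have e2 := D.uf_phi_smul hσ ((y : (P.freyCurve⁄Qb).Point) - y₀)
    rw [e, ← hT] at e2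
    rw [map_sub, map_one, ← e2]
  · intro σ hσ _ hκ0
    have e := phi_smul_Q D hκ hy₀ hσ
    have e2 := D.uf_phi_smul hσ ((y : (P.freyCurve⁄Qb).Point) - y₀)
    rw [e, ← hT] at e2
    have hL : (κ σ).val • ℓ₀ ∈ D.V1 := D.V1.nsmul_mem hℓ _
    have hL0 : (κ σ).val • ℓ₀ ≠ 0 := fun h => hℓ0 (eq_zero_of_nsmul_eq_zero ℓ₀ hκ0 h)
    have hL1 := D.val_uT_sub_one hζ hL hL0
    have h4 := Break4.val_uf_add_sub D.v2 D.hα D.vα P.pp D.p_ne_two hζ vN_p_lt_one D.vb_le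
      hE (D.mem_V1.mp hL) hL1
    have e3 : σ (uf D.α T - 1) - (uf D.α T - 1) =
        uf D.α (T + D.pt ((κ σ).val • ℓ₀)) - uf D.α T := by
      rw [map_sub, map_one, ← e2]; ring
    exact vN_eq_iff.mp (by rw [e3]; exact h4)

include hℓ hu hκ hy₀ hE in
/-- second case: the cocycle vanishes on `Γ_L`. -/
theorem split_of_val_le
    (hR : vN P.p (zc (D.φ (P.p • ((y : (P.freyCurve⁄Qb).Point) - y₀)))) ≤
      vN P.p ((P.p : ℕ) : Qb) ^ 2) :
    ∀ σ ∈ Iv P.p, σ ζ = ζ → κ σ = 0 := by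
  intro σ hσ hσζ
  obtain ⟨T, hT⟩ : ∃ T, T = D.φ ((y : (P.freyCurve⁄Qb).Point) - y₀) := ⟨_, rfl⟩
  rw [map_nsmul] at hR
  rw [← hT] at hR hE
  obtain ⟨j, hj, hcl⟩ := Break4.exists_close_of_val_le D.v2 D.hα D.vα P.pp D.p_ne_two hζ
    vN_p_lt_one D.vb_le hE hR
  have e := phi_smul_Q D hκ hy₀ hσ
  have e2 := D.uf_phi_smul hσ ((y : (P.freyCurve⁄Qb).Point) - y₀)
  rw [e, ← hT] at e2
  have hL : (κ σ).val • ℓ₀ ∈ D.V1 := D.V1.nsmul_mem hℓ _
  have hk := close_nsmul hζ D hℓ hu (κ σ).val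
  have hjk : vN P.p (uf D.α (T + D.pt ((κ σ).val • ℓ₀)) - ζ ^ j) < vN P.p (ζ - 1) := by
    have e3 : uf D.α (T + D.pt ((κ σ).val • ℓ₀)) - ζ ^ j = σ (uf D.α T - ζ ^ j) := by
      rw [map_sub, map_pow, hσζ, e2]
    rw [e3, vN_apply_of_mem_Iv hσ]; exact hcl
  have hdvd := Break4.dvd_of_close D.v2 D.hα D.vα P.pp D.p_ne_two hζ vN_p_lt_one D.vb_le
    hE (D.mem_V1.mp hL) hcl hk hjk
  have h0 := Nat.eq_zero_of_dvd_of_lt hdvd (ZMod.val_lt _)
  exact (ZMod.val_eq_zero _).mp h0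

end Dichotomy

/-! ### Shape (C) -/

/-- **shape (C) with a peu ramifié cocycle** on `E[p]` of the Frey curve (instance form). -/
theorem exists_peuData (hp : (P.p : ℤ) ∣ P.a * P.b * P.c) :
    ∃ (ℓ₀ y : Tors P) (χ κ : GQ → ZMod P.p),
      PeuData P.p (fun σ x => σ • x) ζ ℓ₀ y χ κ := by
  obtain ⟨D⟩ := exists_mdata P hp
  obtain ⟨ℓ₀, hℓ, hℓ0, hu, hgen⟩ := D.exists_gen hζ
  obtain ⟨y, hy⟩ := D.exists_not_mem_V1 hζ
  choose χ hχ using (fun σ : GQ => exists_chi hζ σ)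
  have hκex : ∀ σ : GQ, ∃ k : ZMod P.p, σ ∈ Iv P.p → σ • y - y = k.val • ℓ₀ := by
    intro σ
    by_cases hσ : σ ∈ Iv P.p
    · obtain ⟨k, hk, e⟩ := hgen _ (D.close_at_p hσ y)
      exact ⟨(k : ZMod P.p), fun _ => by rw [ZMod.val_natCast_of_lt hk, e]⟩
    · exact ⟨0, fun h => absurd h hσ⟩
  choose κ hκ using hκex
  refine ⟨ℓ₀, y, χ, κ, ?_⟩
  refine
    { killed := fun x => MData.nsmul_tors x
      indep := ?_
      spans := ?_
      zeta := fun σ _ => hχ σ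
      act_line := fun σ hσ => D.smul_gen hζ hℓ hu hσ (hχ σ)
      act_y := fun σ hσ => hκ σ hσ
      act_add := fun σ _ x x' => smul_add σ x x'
      peu := ?_ }
  · intro a b hab
    have hb : b = 0 := by
      by_contra hb
      apply hy
      have h1 : b.val • y = -(a.val • ℓ₀) := by
        rw [eq_neg_iff_add_eq_zero, add_comm]; exact hab
      have h2 : b.val • y ∈ D.V1 := by
        rw [h1]; exact D.V1.neg_mem (D.V1.nsmul_mem hℓ _)
      have h3 : ((b⁻¹).val * b.val) • y = 1 • y := by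
        apply nsmul_eq_of_cast_eq
        push_cast
        rw [ZMod.natCast_zmod_val, ZMod.natCast_zmod_val, inv_mul_cancel₀ hb]
      rw [one_smul, mul_smul] at h3
      rw [← h3]
      exact D.V1.nsmul_mem h2 _
    refine ⟨?_, hb⟩
    by_contra ha
    rw [hb, ZMod.val_zero, zero_smul, add_zero] at hab
    exact hℓ0 (eq_zero_of_nsmul_eq_zero ℓ₀ ha hab)
  · intro x
    obtain ⟨j, hj, hmem⟩ := D.exists_nsmul_sub_mem hζ hy x
    obtain ⟨k, hk, e⟩ := hgen _ hmem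
    refine ⟨(k : ZMod P.p), (j : ZMod P.p), ?_⟩
    rw [ZMod.val_natCast_of_lt hk, ZMod.val_natCast_of_lt hj, ← e]
    abel
  · obtain ⟨y₀, hy₀, hE⟩ := D.exists_lift hζ hy
    have hfix : ∀ σ ∈ Iv P.p,
        σ • (P.p • ((y : (P.freyCurve⁄Qb).Point) - y₀)) =
          P.p • ((y : (P.freyCurve⁄Qb).Point) - y₀) :=
      fun σ hσ => smul_p_Q hκ hy₀ hσ
    have hE' : Kernel.InE1 (vN P.p) (D.φ (P.p • ((y : (P.freyCurve⁄Qb).Point) - y₀))) := by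
      rw [map_nsmul]
      exact (nsmul_estimate D.integral (hE.zc_lt_one D.integral) hE le_rfl P.p).1
    rcases D.val_zc_cases hfix hE' with hR | hR
    · exact Or.inr ⟨_, break_of_val_eq hζ D hℓ hℓ0 hκ hy₀ hE hR⟩
    · exact Or.inl (split_of_val_le hζ D hℓ hu hκ hy₀ hE hR)

end

/-- **The theorem of chapter PEU.** -/
theorem peuFrey (P : FreyPackage) : PeuFrey P := by
  intro hp ζ hζ
  exact @exists_peuData P ⟨P.pp⟩ ζ hζ hp

end Fermat.Agent.MP.PEU.Main4
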