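/-
Programme MP, chapter PEU (helper4), file Ram4: **consumer-side complements to shape (C)**.

* `exists_moves_zeta` : for `p` odd, some `σ ∈ Iv p` moves `ζ` (`ζ_p` is ramified at `p`);
* `PeuData.exists_chi_ne_one` : `∃ σ ∈ Iv p, χ σ ≠ 1`;
* `PeuData.exists_eigen` : `∃ σ ∈ Iv p, ∃ a : ℤ, act σ ℓ₀ = a • ℓ₀ ∧ IsCoprime (a - 1) p`
  (the input of FINAL's `mem_kerRed_datum_of_smul_eq`, giving `ℓ₀ ∈ kerRed`);
* for a genuine action (`act (σ τ) = act σ ∘ act τ`): `PeuData.kappa_mul` (`κ` is additive on `Γ_L`),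
  `PeuData.kappa_pow`, `PeuData.exists_kappa_eq_one` (non-split case: `κ σ₁ = 1` for some `σ₁ ∈ Γ_L`);
* `PeuData.act_eq_self_of_split` : in the split case `Γ_L` acts trivially on `M`.
-/
import Mathlib
import Fermat.Agent.MP.PEU.Iface4
import Fermat.Agent.MP.PEU.Cyclo4
import Fermat.Agent.MP.PEU.Val4

set_option autoImplicit false
set_option linter.unusedSectionVars false
set_option linter.style.longLine false

namespace Fermat.Agent.MP.PEU.Ram4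

open Fermat.Agent.FF.BASE.Place2 Fermat.Agent.TW.FLAT.FlatModule6
open Fermat.Agent.MP.PEU.Val4 Fermat.Agent.MP.PEU.Iface4 Fermat.Agent.MP.PEU.Cyclo4
open scoped NNReal

noncomputable section

variable {p : ℕ} [Fact p.Prime]

/-- a unit of `Wur p` has norm one. -/
theorem vN_eq_one_of_unit {u : Qb} (hu : u ∈ Wur p) (hu' : u⁻¹ ∈ Wur p) (hu0 : u ≠ 0) :
    vN p u = 1 := by
  have h1 : vN p u ≤ 1 := vN_le_one_iff.mpr hu.1
  have h2 : vN p u⁻¹ ≤ 1 := vN_le_one_iff.mpr hu'.1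
  rw [map_inv₀] at h2
  have hpos : 0 < vN p u := by rw [Valuation.pos_iff]; exact hu0
  rw [inv_le_one₀ hpos] at h2
  exact le_antisymm h1 h2

/-- **`ζ_p` is ramified at `p`** (`p` odd): some element of the inertia group moves `ζ`. -/
theorem exists_moves_zeta (hp2 : p ≠ 2) {ζ : Qb} (hζ : IsPrimitiveRoot ζ p) :
    ∃ σ ∈ Iv p, σ ζ ≠ ζ := by
  have hp : p.Prime := Fact.out
  by_contra hcon
  push Not at hcon
  have hl1 := val_lam_lt_one (v := vN p) hp hζ vN_p_lt_one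
  have hW : ζ - 1 ∈ Wur p := by
    rw [mem_Wur_iff]
    refine ⟨?_, fun σ hσ => by rw [map_sub, map_one, hcon σ hσ]⟩
    have := hl1.le
    rwa [← NNReal.coe_le_coe, vN_coe, NNReal.coe_one] at this
  have h0 : ζ - 1 ≠ 0 := sub_ne_zero.mpr (hζ.ne_one hp.one_lt)
  obtain ⟨n, u, hu, hu', e⟩ := Wur.exists_eq_pow_mul hW h0
  have hu0 : u ≠ 0 := by
    rintro rfl; rw [mul_zero] at e; exact h0 e
  have hu1 := vN_eq_one_of_unit hu hu' hu0
  have hv : vN p (ζ - 1) = vN p ((p : ℕ) : Qb) ^ n := by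
    rw [e, map_mul, map_pow, hu1, mul_one]
  have h1 := val_lam_pow (v := vN p) hp hζ
  rw [hv, ← pow_mul] at h1
  have hpos : 0 < vN p ((p : ℕ) : Qb) := by
    rw [Valuation.pos_iff]; exact_mod_cast hp.ne_zero
  have h3 : n * (p - 1) = 1 :=
    pow_right_injective₀ hpos (ne_of_lt vN_p_lt_one)
      (by show vN p ((p : ℕ) : Qb) ^ (n * (p - 1)) = vN p ((p : ℕ) : Qb) ^ 1; rw [h1, pow_one])
  have h4 : p - 1 = 1 := Nat.dvd_one.mp ⟨n, by rw [mul_comm]; exact h3.symm⟩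
  have := hp.two_le
  omega

section Abstract

variable {M : Type*} [AddCommGroup M] {act : GQ → M → M}
  {ζ : Qb} {ℓ₀ y : M} {χ κ : GQ → ZMod p}

theorem PeuData.exists_chi_ne_one (h : PeuData p act ζ ℓ₀ y χ κ) (hp2 : p ≠ 2)
    (hζ : IsPrimitiveRoot ζ p) : ∃ σ ∈ Iv p, χ σ ≠ 1 := by
  have hp : p.Prime := Fact.out
  have : Fact (1 < p) := ⟨hp.one_lt⟩
  obtain ⟨σ, hσ, hne⟩ := exists_moves_zeta hp2 hζ
  refine ⟨σ, hσ, fun h1 => hne ?_⟩
  rw [h.zeta σ hσ, h1, ZMod.val_one, pow_one]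

/-- `ℓ₀` is an eigenvector of some `σ ∈ Iv p` with eigenvalue `≢ 1 mod p`. -/
theorem PeuData.exists_eigen (h : PeuData p act ζ ℓ₀ y χ κ) (hp2 : p ≠ 2)
    (hζ : IsPrimitiveRoot ζ p) :
    ∃ σ ∈ Iv p, ∃ a : ℤ, act σ ℓ₀ = a • ℓ₀ ∧ IsCoprime (a - 1) (p : ℤ) := by
  have hp : p.Prime := Fact.out
  obtain ⟨σ, hσ, hne⟩ := PeuData.exists_chi_ne_one h hp2 hζ
  refine ⟨σ, hσ, ((χ σ).val : ℤ), by rw [h.act_line σ hσ, natCast_zsmul], ?_⟩
  have hpi : Irreducible (p : ℤ) := (Nat.prime_iff_prime_int.mp hp).irreducible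
  apply IsCoprime.symm
  rw [hpi.coprime_iff_not_dvd, ← ZMod.intCast_zmod_eq_zero_iff_dvd]
  push_cast
  rw [ZMod.natCast_zmod_val, sub_eq_zero]
  exact hne

theorem PeuData.act_zero (h : PeuData p act ζ ℓ₀ y χ κ) {σ : GQ} (hσ : σ ∈ Iv p) :
    act σ 0 = 0 := by
  have h0 := act_nsmul h hσ 0 (0 : M)
  rwa [zero_smul, zero_smul] at h0

/-- multiples of `ℓ₀` depend only on the class modulo `p`. -/
theorem PeuData.nsmul_eq_of_cast_eq (h : PeuData p act ζ ℓ₀ y χ κ) (x : M) {n m : ℕ}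
    (hnm : (n : ZMod p) = m) : n • x = m • x := by
  have key : ∀ n : ℕ, n • x = (n % p) • x := by
    intro n
    conv_lhs => rw [← Nat.mod_add_div n p]
    rw [add_smul, mul_comm, mul_smul, h.killed x, smul_zero, add_zero]
  rw [key n, key m, (ZMod.natCast_eq_natCast_iff' n m p).mp hnm]

/-- `a • ℓ₀ = b • ℓ₀ ⇒ a = b` in `ZMod p`. -/
theorem PeuData.line_inj (h : PeuData p act ζ ℓ₀ y χ κ) {a b : ZMod p}
    (hab : a.val • ℓ₀ = b.val • ℓ₀) : a = b := by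
  have h1 : ((a - b).val) • ℓ₀ + (0 : ZMod p).val • y = 0 := by
    rw [ZMod.val_zero, zero_smul, add_zero]
    have h2 : (a - b).val • ℓ₀ + b.val • ℓ₀ = a.val • ℓ₀ := by
      rw [← add_smul]
      apply PeuData.nsmul_eq_of_cast_eq h
      push_cast
      rw [ZMod.natCast_zmod_val, ZMod.natCast_zmod_val, ZMod.natCast_zmod_val, sub_add_cancel]
    rw [hab] at h2
    exact add_eq_right.mp h2
  exact sub_eq_zero.mp (h.indep _ _ h1).1

section Action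

variable (hmul : ∀ σ τ : GQ, ∀ x : M, act (σ * τ) x = act σ (act τ x))
include hmul

/-- `κ` is additive on `Γ_L`. -/
theorem PeuData.kappa_mul (h : PeuData p act ζ ℓ₀ y χ κ) (hζ : IsPrimitiveRoot ζ p)
    {σ τ : GQ} (hσ : σ ∈ Iv p) (hτ : τ ∈ Iv p) (hσζ : σ ζ = ζ) :
    κ (σ * τ) = κ σ + κ τ := by
  apply PeuData.line_inj h
  have hστ : σ * τ ∈ Iv p := (Iv p).mul_mem hσ hτ
  have h1 : act τ y = y + (κ τ).val • ℓ₀ := by rw [← h.act_y τ hτ]; abel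
  have h2 : act σ y = y + (κ σ).val • ℓ₀ := by rw [← h.act_y σ hσ]; abel
  have h3 : act σ ℓ₀ = ℓ₀ := h.fixed_of_zeta hζ hσ hσζ
  rw [← h.act_y (σ * τ) hστ, hmul, h1, h.act_add σ hσ, act_nsmul h hσ, h3, h2]
  have h4 : y + (κ σ).val • ℓ₀ + (κ τ).val • ℓ₀ - y = ((κ σ).val + (κ τ).val) • ℓ₀ := by
    rw [add_smul]; abel
  rw [h4]
  apply PeuData.nsmul_eq_of_cast_eq h
  push_cast
  rw [ZMod.natCast_zmod_val, ZMod.natCast_zmod_val, ZMod.natCast_zmod_val]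

theorem PeuData.kappa_pow (h : PeuData p act ζ ℓ₀ y χ κ) (hζ : IsPrimitiveRoot ζ p)
    {σ : GQ} (hσ : σ ∈ Iv p) (hσζ : σ ζ = ζ) (n : ℕ) :
    κ (σ ^ (n + 1)) = ((n + 1 : ℕ) : ZMod p) * κ σ := by
  induction n with
  | zero => simp
  | succ n ih =>
    rw [pow_succ', PeuData.kappa_mul hmul h hζ hσ ((Iv p).pow_mem hσ _) hσζ, ih]
    push_cast
    ring

/-- in the non-split case some `σ₁ ∈ Γ_L` has `κ σ₁ = 1`. -/
theorem PeuData.exists_kappa_eq_one (h : PeuData p act ζ ℓ₀ y χ κ) (hζ : IsPrimitiveRoot ζ p)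
    {σ : GQ} (hσ : σ ∈ Iv p) (hσζ : σ ζ = ζ) (hκ : κ σ ≠ 0) :
    ∃ σ₁ ∈ Iv p, σ₁ ζ = ζ ∧ κ σ₁ = 1 := by
  have hp : p.Prime := Fact.out
  obtain ⟨m, hm⟩ : ∃ m : ℕ, (κ σ)⁻¹.val = m + 1 := by
    have : (κ σ)⁻¹.val ≠ 0 := by
      rw [ne_eq, ZMod.val_eq_zero]; exact inv_ne_zero hκ
    exact ⟨(κ σ)⁻¹.val - 1, by omega⟩
  refine ⟨σ ^ (m + 1), (Iv p).pow_mem hσ _, ?_, ?_⟩
  · rw [AlgEquiv.coe_pow]
    exact Function.iterate_fixed hσζ _
  · rw [PeuData.kappa_pow hmul h hζ hσ hσζ, ← hm, ZMod.natCast_zmod_val, inv_mul_cancel₀ hκ]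

end Action

/-- in the split case `Γ_L` acts trivially. -/
theorem PeuData.act_eq_self_of_split (h : PeuData p act ζ ℓ₀ y χ κ) (hζ : IsPrimitiveRoot ζ p)
    (hs : ∀ σ ∈ Iv p, σ ζ = ζ → κ σ = 0) {σ : GQ} (hσ : σ ∈ Iv p) (hσζ : σ ζ = ζ) (x : M) :
    act σ x = x := by
  obtain ⟨a, b, rfl⟩ := h.spans x
  have h1 : act σ y = y := by
    have := h.act_y σ hσ
    rw [hs σ hσ hσζ, ZMod.val_zero, zero_smul] at this
    exact sub_eq_zero.mp this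
  rw [h.act_add σ hσ, act_nsmul h hσ, act_nsmul h hσ, h.fixed_of_zeta hζ hσ hσζ, h1]

end Abstract

end

end Fermat.Agent.MP.PEU.Ram4
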